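import Fermat.Agent.Galois.Places
import Mathlib.RingTheory.Algebraic.Integral

/-!
# Places of algebraic numbers have rank one
-/

set_option autoImplicit false

noncomputable section

open IsLocalRing Polynomial

namespace Fermat.Agent.BAD

open Fermat.Agent Fermat.Agent.Galois

variable {L : Type*} [Field L] [CharZero L] [Algebra.IsAlgebraic ℚ L] {A : ValuationSubring L}
  {q : ℕ}

theorem intCast_div_mem (hA : A.LiesOverPrime q) (hq : q.Prime) (b : ℤ) (hb : b ≠ 0) :
    ∃ a : ℕ, (q : L) ^ a / (b : L) ∈ A := by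
  obtain ⟨u, hbu, hu⟩ := (FiniteMultiplicity.of_prime_left (Nat.prime_iff_prime_int.mp hq)
    hb).exists_eq_pow_mul_and_not_dvd
  refine ⟨multiplicity (q : ℤ) b, ?_⟩
  have hu' : (u : L) ∉ A.nonunits := fun h => hu ((place_intCast_mem_nonunits_iff hA hq u).mp h)
  have hq0 : (q : L) ≠ 0 := Nat.cast_ne_zero.mpr hq.ne_zero
  generalize multiplicity (q : ℤ) b = a at hbu ⊢
  rw [hbu, Int.cast_mul, Int.cast_pow, Int.cast_natCast, ← div_div, div_self (pow_ne_zero _ hq0),
    one_div]
  by_contra hcon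
  exact hu' (by
    rw [ValuationSubring.mem_nonunits_iff, ← inv_inv (u : L), map_inv₀]
    refine inv_lt_one_of_one_lt₀ (not_le.mp fun h => hcon ?_)
    exact (A.valuation_le_one_iff _).mp h)

theorem exists_natCast_pow_div_mem (hA : A.LiesOverPrime q) (hq : q.Prime) {c : L} (hc : c ≠ 0) :
    ∃ a : ℕ, (q : L) ^ a / c ∈ A := by
  rcases A.mem_or_inv_mem c with hcA | hcA
  swap
  · exact ⟨0, by simpa using hcA⟩
  obtain ⟨f, hf, hfc⟩ := ((IsFractionRing.isAlgebraic_iff ℤ ℚ L).mpr
    (Algebra.IsAlgebraic.isAlgebraic (R := ℚ) c) : IsAlgebraic ℤ c)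
  obtain ⟨g, hfg, hg⟩ := exists_eq_pow_rootMultiplicity_mul_and_not_dvd f hf 0
  rw [map_zero, sub_zero] at hfg hg
  have hgc : aeval c g = 0 := by
    rw [hfg, map_mul, map_pow, aeval_X] at hfc
    exact (mul_eq_zero.mp hfc).resolve_left (pow_ne_zero _ hc)
  have hb : g.coeff 0 ≠ 0 := fun h => hg (X_dvd_iff.mpr h)
  obtain ⟨a, ha⟩ := intCast_div_mem hA hq _ hb
  refine ⟨a, ?_⟩
  have hsplit : (g.coeff 0 : L) = -(c * aeval c g.divX) := by
    rw [eq_neg_iff_add_eq_zero, add_comm]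
    conv_rhs => rw [← hgc, ← X_mul_divX_add g]
    simp
  have hbL : (g.coeff 0 : L) ≠ 0 := by exact_mod_cast hb
  have hmem : aeval c g.divX ∈ A := by
    rw [aeval_eq_sum_range]
    exact sum_mem fun i _ => by
      rw [zsmul_eq_mul]
      exact mul_mem (intCast_mem A _) (pow_mem hcA _)
  have hrw : (q : L) ^ a / c = (q : L) ^ a / (g.coeff 0 : L) * ((g.coeff 0 : L) / c) := by
    field_simp
  rw [hrw]
  refine mul_mem ha ?_
  rw [hsplit, neg_div, mul_div_cancel_left₀ _ hc]
  exact neg_mem hmem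

theorem exists_pow_div_natCast_mem (hA : A.LiesOverPrime q) (hq : q.Prime) {x : L}
    (hx : x ∈ A.nonunits) : ∃ n : ℕ, x ^ n / (q : L) ∈ A := by
  classical
  rcases eq_or_ne x 0 with rfl | hx00
  · exact ⟨1, by simp⟩
  obtain ⟨f₀, hf₀, hfx₀⟩ := ((IsFractionRing.isAlgebraic_iff ℤ ℚ L).mpr
    (Algebra.IsAlgebraic.isAlgebraic (R := ℚ) x) : IsAlgebraic ℤ x)
  set f := f₀.primPart
  have hfx : aeval x f = 0 := by
    rw [f₀.eq_C_content_mul_primPart, map_mul, aeval_C] at hfx₀
    exact (mul_eq_zero.mp hfx₀).resolve_left (by simpa [content_eq_zero_iff] using hf₀)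
  have hex : ∃ i, ¬ (q : ℤ) ∣ f.coeff i := by
    by_contra h
    push Not at h
    have hu := f₀.isPrimitive_primPart _ (C_dvd_iff_dvd_coeff _ _ |>.mpr h)
    exact hq.ne_one (by simpa [Int.isUnit_iff_natAbs_eq] using hu)
  refine ⟨Nat.find hex, ?_⟩
  set n := Nat.find hex
  have hvx : A.valuation x < 1 := hx
  have hvq : A.valuation (q : L) < 1 := hA
  by_contra hcon
  rw [← A.valuation_le_one_iff, map_div₀, map_pow, div_le_one₀ (zero_lt_iff.mpr
    ((_root_.map_ne_zero _).mpr (Nat.cast_ne_zero.mpr hq.ne_zero))), not_le] at hcon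
  have hx0 : 0 < A.valuation x ^ n := lt_of_le_of_lt zero_le hcon
  have hb : A.valuation (f.coeff n : L) = 1 := by
    refine le_antisymm ((A.valuation_le_one_iff _).mpr (intCast_mem A _)) (not_lt.mp fun h => ?_)
    exact Nat.find_spec hex ((place_intCast_mem_nonunits_iff hA hq _).mp h)
  have hterm : ∀ i, i ≠ n → A.valuation ((f.coeff i : L) * x ^ i) < A.valuation x ^ n := by
    intro i hi
    rw [map_mul, map_pow]
    rcases lt_or_gt_of_ne hi with h | h
    · obtain ⟨m, hm⟩ := not_not.mp (Nat.find_min hex h)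
      refine lt_of_le_of_lt ?_ hcon
      rw [hm, Int.cast_mul, map_mul, Int.cast_natCast, mul_assoc]
      exact mul_le_of_le_one_right' (mul_le_one' ((A.valuation_le_one_iff _).mpr (intCast_mem A _))
        (pow_le_one₀ zero_le hvx.le))
    · refine lt_of_le_of_lt (mul_le_of_le_one_left' ((A.valuation_le_one_iff _).mpr
        (intCast_mem A _))) ?_
      have hvx0 : 0 < A.valuation x := zero_lt_iff.mpr ((_root_.map_ne_zero _).mpr hx00)
      exact pow_lt_pow_right_of_lt_one₀ hvx0 hvx h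
  have hsum : (f.coeff n : L) * x ^ n = -∑ i ∈ (Finset.range (f.natDegree + 1)).erase n,
      (f.coeff i : L) * x ^ i := by
    have hn : n ∈ Finset.range (f.natDegree + 1) :=
      Finset.mem_range.mpr (Nat.lt_succ_of_le (le_natDegree_of_ne_zero fun h =>
        Nat.find_spec hex (by rw [show f.coeff n = 0 from h]; exact dvd_zero _)))
    rw [eq_neg_iff_add_eq_zero, Finset.add_sum_erase _ (fun i => (f.coeff i : L) * x ^ i) hn,
      ← hfx, aeval_eq_sum_range]
    simp [zsmul_eq_mul]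
  have h1 := congrArg A.valuation hsum
  rw [Valuation.map_neg, map_mul, map_pow, hb, one_mul] at h1
  exact (Valuation.map_sum_lt _ hx0.ne' fun i hi => hterm i (Finset.ne_of_mem_erase hi)).ne h1.symm

/-- A non-unit to a high power is divisible by any nonzero constant. -/
theorem exists_pow_div_mem (hA : A.LiesOverPrime q) (hq : q.Prime) {x : L} (hx : x ∈ A.nonunits)
    {c : L} (hc : c ≠ 0) : ∃ N : ℕ, x ^ N / c ∈ A := by
  obtain ⟨a, ha⟩ := exists_natCast_pow_div_mem hA hq hc
  obtain ⟨n, hn⟩ := exists_pow_div_natCast_mem hA hq hx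
  refine ⟨n * a, ?_⟩
  have hrw : x ^ (n * a) / c = (x ^ n / (q : L)) ^ a * ((q : L) ^ a / c) := by
    have : (q : L) ≠ 0 := Nat.cast_ne_zero.mpr hq.ne_zero
    rw [div_pow, pow_mul]
    field_simp
  rw [hrw]
  exact mul_mem (pow_mem hn a) ha

end Fermat.Agent.BAD
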