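import Fermat.Agent.BAD.Datum
import Mathlib.FieldTheory.KummerPolynomial
import Mathlib.Algebra.CharP.Lemmas
import Mathlib.Algebra.CharP.Algebra

/-!
# Elementary consequences of the two-component datum
-/

set_option autoImplicit false

noncomputable section

open AlgebraicCurve

namespace Fermat.Agent.BAD

/-- Constants have order zero at every place. -/
theorem ord_const {K F : Type*} [Field K] [Field F] [Algebra K F] (v : Place K F) (c : K) :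
    v.ord (algebraMap K F c) = 0 := by
  have key : ∀ a : K, algebraMap K F a = 0 ∨ 0 ≤ v.ord (algebraMap K F a) := fun a =>
    v.adicValuation_le_one_iff.mp (v.adicValuation_algebraMap_le_one a)
  rcases eq_or_ne c 0 with rfl | hc
  · simp
  have h1 := (key c).resolve_left ((map_ne_zero _).mpr hc)
  have h2 := (key c⁻¹).resolve_left ((map_ne_zero _).mpr (inv_ne_zero hc))
  rw [map_inv₀, v.ord_inv] at h2
  omega

namespace NodalDatum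

variable {L k : Type} [Field L] [Field k] {A : ValuationSubring L} {π : A →+* k}
variable {F E C : Type} [Field F] [Field E] [Field C] [Algebra L F] [Algebra L E] [Algebra k C]
variable (Δ : NodalDatum A π F E C)

instance instFactPrime : Fact Δ.q.Prime := ⟨Δ.hq⟩

theorem charP_C : CharP C Δ.q :=
  haveI := Δ.charP
  charP_of_injective_algebraMap (algebraMap k C).injective Δ.q

/-- The relative Frobenius of `C`. -/
def φ : C →+* C :=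
  haveI := Δ.charP_C
  (frobenius C Δ.q).comp (SemilinearAut.toRingAut Δ.τ⁻¹).toRingHom

theorem φ_apply (x : C) : Δ.φ x = (Δ.τ⁻¹ • x) ^ Δ.q := rfl

theorem φ_smul (x : C) : Δ.φ (Δ.τ • x) = x ^ Δ.q := by
  rw [φ_apply, inv_smul_smul]

theorem φ_injective : Function.Injective Δ.φ := Δ.φ.injective

theorem φ_J : Δ.φ (Δ.PE.red Δ.jE) = Δ.PE.red Δ.jE ^ Δ.q := by
  conv_lhs => rw [← Δ.τ_J]
  rw [φ_smul]

/-- `α` on integral elements, into the first component. -/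
def α₁ (x : Δ.PE.G) : Δ.P₁.G := ⟨Δ.α (x : E), Δ.α_mem₁ x⟩
/-- `α` on integral elements, into the second component. -/
def α₂ (x : Δ.PE.G) : Δ.P₂.G := ⟨Δ.α (x : E), Δ.α_mem₂ x⟩
/-- `β` on integral elements, into the first component. -/
def β₁ (x : Δ.PE.G) : Δ.P₁.G := ⟨Δ.β (x : E), Δ.β_mem₁ x⟩
/-- `β` on integral elements, into the second component. -/
def β₂ (x : Δ.PE.G) : Δ.P₂.G := ⟨Δ.β (x : E), Δ.β_mem₂ x⟩

theorem red_α₁ (x : Δ.PE.G) : Δ.P₁.red (Δ.α₁ x) = Δ.PE.red x := Δ.α_red₁ x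
theorem red_α₂ (x : Δ.PE.G) : Δ.P₂.red (Δ.α₂ x) = Δ.φ (Δ.PE.red x) := Δ.α_red₂ x
theorem red_β₁ (x : Δ.PE.G) : Δ.P₁.red (Δ.β₁ x) = Δ.φ (Δ.PE.red x) := Δ.β_red₁ x
theorem red_β₂ (x : Δ.PE.G) : Δ.P₂.red (Δ.β₂ x) = Δ.PE.red x := Δ.β_red₂ x

/-- The reduction of `j`. -/
abbrev J : C := Δ.PE.red Δ.jE

theorem J_ne_zero : Δ.J ≠ 0 := fun h =>
  Δ.J_not_pow 0 (by rw [zero_pow Δ.hq.ne_zero]; exact h.symm)

theorem J_pow_ne : Δ.J ^ (Δ.q * Δ.q) ≠ Δ.J := fun h =>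
  Δ.J_not_pow (Δ.J ^ Δ.q) (by rw [← pow_mul]; exact h)

include Δ in
theorem map_ne_zero_iff_isUnit (a : A) : π a ≠ 0 ↔ IsUnit a := by
  have hker : RingHom.ker π = IsLocalRing.maximalIdeal A :=
    IsLocalRing.eq_maximalIdeal (RingHom.ker_isMaximal_of_surjective π Δ.hπ)
  rw [ne_eq, ← RingHom.mem_ker, hker, IsLocalRing.mem_maximalIdeal, mem_nonunits_iff, not_not]

theorem one_lt_q : 1 < Δ.q := Δ.hq.one_lt

/-- `j(qτ) ^ q - j(τ)`, nonzero on the first component and zero on the second. -/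
def e : F := Δ.β (Δ.jE : E) ^ Δ.q - Δ.α (Δ.jE : E)

theorem e_mem₁ : Δ.e ∈ Δ.P₁.G := (Δ.β₁ Δ.jE ^ Δ.q - Δ.α₁ Δ.jE).2

theorem e_mem₂ : Δ.e ∈ Δ.P₂.G := (Δ.β₂ Δ.jE ^ Δ.q - Δ.α₂ Δ.jE).2

theorem red_e₁ : Δ.P₁.red ⟨Δ.e, Δ.e_mem₁⟩ = Δ.J ^ (Δ.q * Δ.q) - Δ.J := by
  have : (⟨Δ.e, Δ.e_mem₁⟩ : Δ.P₁.G) = Δ.β₁ Δ.jE ^ Δ.q - Δ.α₁ Δ.jE := rfl
  rw [this, map_sub, map_pow, red_β₁, red_α₁, φ_J, ← pow_mul]

theorem red_e₁_ne_zero : Δ.P₁.red ⟨Δ.e, Δ.e_mem₁⟩ ≠ 0 := by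
  rw [red_e₁, sub_ne_zero]
  exact Δ.J_pow_ne

theorem red_e₂ : Δ.P₂.red ⟨Δ.e, Δ.e_mem₂⟩ = 0 := by
  have : (⟨Δ.e, Δ.e_mem₂⟩ : Δ.P₂.G) = Δ.β₂ Δ.jE ^ Δ.q - Δ.α₂ Δ.jE := rfl
  rw [this, map_sub, map_pow, red_β₂, red_α₂, φ_J, sub_self]

/-- `j(τ) ^ q - j(qτ)`, zero on the first component and nonzero on the second. -/
def e' : F := Δ.swap.e

theorem e'_mem₁ : Δ.e' ∈ Δ.P₁.G := Δ.swap.e_mem₂

theorem e'_mem₂ : Δ.e' ∈ Δ.P₂.G := Δ.swap.e_mem₁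

theorem red_e'₁ : Δ.P₁.red ⟨Δ.e', Δ.e'_mem₁⟩ = 0 := Δ.swap.red_e₂

theorem red_e'₂_ne_zero : Δ.P₂.red ⟨Δ.e', Δ.e'_mem₂⟩ ≠ 0 := Δ.swap.red_e₁_ne_zero

end NodalDatum

end Fermat.Agent.BAD
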