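import Mathlib.RingTheory.Valuation.ValuationSubring
import Mathlib.RingTheory.LaurentSeries
import Mathlib.LinearAlgebra.Dimension.Constructions
import Mathlib.LinearAlgebra.FiniteDimensional.Basic

/-!
# Counting residues on one or two branches

If families of residues on two valuation rings above a valuation ring of `K` are independent over
the residues of `K`, and the two valuation rings can be separated, then the total number of
residues is at most `[F : K]`.
-/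

set_option autoImplicit false

noncomputable section

namespace Fermat.Agent.BAD

variable {K F : Type*} [Field K] [Field F] [Algebra K F]

/-- Elements satisfying no relation with a unit coefficient are linearly independent. -/
theorem card_le_finrank_of_unit_relation [FiniteDimensional K F] (V : ValuationSubring K)
    {ι : Type*} [Fintype ι] (w : ι → F)
    (h : ∀ c : ι → V, ∑ x, algebraMap K F (c x : K) * w x = 0 → ∀ x, ¬ IsUnit (c x)) :
    Fintype.card ι ≤ Module.finrank K F := by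
  refine LinearIndependent.fintype_card_le_finrank (R := K) (b := w) ?_
  rw [Fintype.linearIndependent_iff]
  intro b hb x₀
  by_contra hx₀
  obtain ⟨j, -, hmax⟩ := Finset.exists_max_image Finset.univ (fun x => V.valuation (b x))
    ⟨x₀, Finset.mem_univ _⟩
  have hj : 0 < V.valuation (b j) :=
    lt_of_lt_of_le ((Valuation.pos_iff _).mpr hx₀) (hmax x₀ (Finset.mem_univ _))
  have hbj : b j ≠ 0 := (Valuation.pos_iff _).mp hj
  have hmem : ∀ x, b x / b j ∈ V := fun x => by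
    rw [← V.valuation_le_one_iff, map_div₀, div_le_one₀ hj]
    exact hmax x (Finset.mem_univ _)
  refine h (fun x => ⟨_, hmem x⟩) ?_ j ?_
  · calc ∑ x, algebraMap K F (b x / b j) * w x
        = (algebraMap K F (b j))⁻¹ * ∑ x, b x • w x := by
          rw [Finset.mul_sum]
          refine Finset.sum_congr rfl fun x _ => ?_
          rw [map_div₀, Algebra.smul_def]; ring
      _ = 0 := by rw [hb, mul_zero]
  · rw [show (⟨_, hmem j⟩ : V) = 1 from Subtype.ext (div_self hbj)]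
    exact isUnit_one

variable {Ω Ω₀ Ω₁ : Type*} [Field Ω] [Field Ω₀] [Field Ω₁]

/-- Independence of residues with respect to the residues of `K`. -/
def ResIndep (V : ValuationSubring K) {W : ValuationSubring F}
    (hV : ∀ c : V, algebraMap K F (c : K) ∈ W) (ρ : W →+* Ω) {ι : Type*} [Fintype ι]
    (w : ι → W) : Prop :=
  ∀ c : ι → V, ∑ x, ρ ⟨algebraMap K F (c x : K), hV (c x)⟩ * ρ (w x) = 0 →
    ∀ x, ρ ⟨algebraMap K F (c x : K), hV (c x)⟩ = 0

section

variable {V : ValuationSubring K} {W : ValuationSubring F}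
    {hV : ∀ c : V, algebraMap K F (c : K) ∈ W} {ρ : W →+* Ω} {ι : Type*} [Fintype ι]

theorem not_isUnit_of_res_eq_zero (c : V)
    (h : ρ ⟨algebraMap K F (c : K), hV c⟩ = 0) : ¬ IsUnit c := by
  intro hu
  let f : V →+* W := ((algebraMap K F).comp V.subtype).codRestrict W fun c => hV c
  exact ((hu.map f).map ρ).ne_zero h

theorem ResIndep.mul_right {w : ι → W} (h : ResIndep V hV ρ w) {z : W} (hz : ρ z ≠ 0) :
    ResIndep V hV ρ fun x => w x * z := by
  intro c hc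
  refine h c ?_
  simp only [map_mul, ← mul_assoc, ← Finset.sum_mul] at hc
  exact (mul_eq_zero.mp hc).resolve_right hz

theorem res_sum {w : ι → W} {c : ι → V}
    (h : ∑ x, algebraMap K F (c x : K) * (w x : F) = 0) :
    ∑ x, ρ ⟨algebraMap K F (c x : K), hV (c x)⟩ * ρ (w x) = 0 := by
  have h' : ∑ x, (⟨algebraMap K F (c x : K), hV (c x)⟩ : W) * w x = 0 :=
    Subtype.ext (by push_cast; exact h)
  have := congrArg ρ h'
  simpa using this

theorem ResIndep.card_le [FiniteDimensional K F] {w : ι → W} (h : ResIndep V hV ρ w) :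
    Fintype.card ι ≤ Module.finrank K F :=
  card_le_finrank_of_unit_relation V (fun x => (w x : F)) fun c hc x =>
    not_isUnit_of_res_eq_zero (hV := hV) (ρ := ρ) (c x)
      (h c (res_sum (hV := hV) (ρ := ρ) hc) x)

end

/-- Two branches that can be separated carry at most `[F : K]` independent residues. -/
theorem card_add_card_le_finrank [FiniteDimensional K F] (V : ValuationSubring K)
    {W₀ W₁ : ValuationSubring F} {hV₀ : ∀ c : V, algebraMap K F (c : K) ∈ W₀}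
    {hV₁ : ∀ c : V, algebraMap K F (c : K) ∈ W₁} {ρ₀ : W₀ →+* Ω₀} {ρ₁ : W₁ →+* Ω₁}
    {e₀ e₁ : F} (he₀ : e₀ ∈ W₀) (he₀' : ρ₀ ⟨e₀, he₀⟩ ≠ 0)
    (he₁ : e₁ ∈ W₁) (he₁' : ρ₁ ⟨e₁, he₁⟩ ≠ 0)
    (hsh₀ : ∀ y : W₀, ∃ N : ℕ, ∀ m, N ≤ m →
      ∃ h : (y : F) * e₀ ^ m ∈ W₁, ρ₁ ⟨_, h⟩ = 0)
    (hsh₁ : ∀ y : W₁, ∃ N : ℕ, ∀ m, N ≤ m →
      ∃ h : (y : F) * e₁ ^ m ∈ W₀, ρ₀ ⟨_, h⟩ = 0)
    {ι₀ ι₁ : Type*} [Fintype ι₀] [Fintype ι₁] {w₀ : ι₀ → W₀} {w₁ : ι₁ → W₁}
    (h₀ : ResIndep V hV₀ ρ₀ w₀) (h₁ : ResIndep V hV₁ ρ₁ w₁) :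
    Fintype.card ι₀ + Fintype.card ι₁ ≤ Module.finrank K F := by
  choose N₀ hN₀ using fun x => hsh₀ (w₀ x)
  choose N₁ hN₁ using fun x => hsh₁ (w₁ x)
  set m := (∑ x, N₀ x) + ∑ x, N₁ x with hm
  have hm₀ : ∀ x, N₀ x ≤ m := fun x =>
    (Finset.single_le_sum (fun i _ => Nat.zero_le (N₀ i)) (Finset.mem_univ x)).trans le_self_add
  have hm₁ : ∀ x, N₁ x ≤ m := fun x =>
    (Finset.single_le_sum (fun i _ => Nat.zero_le (N₁ i)) (Finset.mem_univ x)).trans le_add_self
  choose a₀ ha₀ using fun x => hN₀ x m (hm₀ x)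
  choose a₁ ha₁ using fun x => hN₁ x m (hm₁ x)
  rw [← Fintype.card_sum]
  refine card_le_finrank_of_unit_relation V
    (Sum.elim (fun x => (w₀ x : F) * e₀ ^ m) fun x => (w₁ x : F) * e₁ ^ m) fun c hc => ?_
  let u₀ : ι₀ ⊕ ι₁ → W₀ := Sum.elim (fun x => w₀ x * (⟨e₀, he₀⟩ : W₀) ^ m) fun x => ⟨_, a₁ x⟩
  let u₁ : ι₀ ⊕ ι₁ → W₁ := Sum.elim (fun x => ⟨_, a₀ x⟩) fun x => w₁ x * (⟨e₁, he₁⟩ : W₁) ^ m
  have hu₀ : ∀ x, (u₀ x : F) =
      Sum.elim (fun x => (w₀ x : F) * e₀ ^ m) (fun x => (w₁ x : F) * e₁ ^ m) x := by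
    rintro (x | x) <;> simp [u₀]
  have hu₁ : ∀ x, (u₁ x : F) =
      Sum.elim (fun x => (w₀ x : F) * e₀ ^ m) (fun x => (w₁ x : F) * e₁ ^ m) x := by
    rintro (x | x) <;> simp [u₁]
  have r₀ := res_sum (hV := hV₀) (ρ := ρ₀) (w := u₀) (c := c) (by simpa [hu₀] using hc)
  have r₁ := res_sum (hV := hV₁) (ρ := ρ₁) (w := u₁) (c := c) (by simpa [hu₁] using hc)
  rw [Fintype.sum_sum_type] at r₀ r₁
  simp only [u₀, Sum.elim_inr, ha₁, mul_zero, Finset.sum_const_zero, add_zero,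
    Sum.elim_inl] at r₀
  simp only [u₁, Sum.elim_inl, ha₀, mul_zero, Finset.sum_const_zero, zero_add,
    Sum.elim_inr] at r₁
  have k₀ := (h₀.mul_right (z := (⟨e₀, he₀⟩ : W₀) ^ m)
    (by rw [map_pow]; exact pow_ne_zero _ he₀')) (fun x => c (Sum.inl x)) r₀
  have k₁ := (h₁.mul_right (z := (⟨e₁, he₁⟩ : W₁) ^ m)
    (by rw [map_pow]; exact pow_ne_zero _ he₁')) (fun x => c (Sum.inr x)) r₁
  rintro (x | x)
  · exact not_isUnit_of_res_eq_zero (hV := hV₀) (ρ := ρ₀) _ (k₀ x)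
  · exact not_isUnit_of_res_eq_zero (hV := hV₁) (ρ := ρ₁) _ (k₁ x)

section Series

variable {k : Type*} [Field k]

/-- Series in `Q ^ n` are independent against powers of a series of order prime to `n`. -/
theorem eq_zero_of_sum_mul_pow {n : ℕ} {J : LaurentSeries k} (hJ0 : J ≠ 0)
    (hJ : J.order = -1) (g : Fin n → LaurentSeries k)
    (hg : ∀ x, ∀ i : ℤ, ¬ (n : ℤ) ∣ i → (g x).coeff i = 0)
    (h : ∑ x, g x * J ^ (x : ℕ) = 0) : ∀ x, g x = 0 := by
  classical
  by_contra hne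
  push Not at hne
  obtain ⟨x₀, hx₀⟩ := hne
  set o : Fin n → ℤ := fun x => (g x).order - (x : ℕ)
  obtain ⟨j, hj, hmin⟩ := Finset.exists_min_image (Finset.univ.filter fun x => g x ≠ 0) o
    ⟨x₀, by simp [hx₀]⟩
  have hj0 : g j ≠ 0 := (Finset.mem_filter.mp hj).2
  have hord : ∀ x, g x ≠ 0 → (g x * J ^ (x : ℕ)).order = o x := fun x hx => by
    rw [HahnSeries.order_mul hx (pow_ne_zero _ hJ0), HahnSeries.order_pow, hJ]
    simp [o, sub_eq_add_neg]
  have hdiv : ∀ x, g x ≠ 0 → (n : ℤ) ∣ (g x).order := fun x hx => by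
    by_contra hd
    exact HahnSeries.coeff_order_eq_zero.not.mpr hx (hg x _ hd)
  have h' := congrArg (fun s : LaurentSeries k => s.coeff (o j)) h
  simp only [HahnSeries.coeff_sum, HahnSeries.coeff_zero] at h'
  rw [Finset.sum_eq_single j] at h'
  · rw [← hord j hj0] at h'
    exact mul_ne_zero hj0 (pow_ne_zero _ hJ0) (HahnSeries.coeff_order_eq_zero.mp h')
  · intro x _ hxj
    rcases eq_or_ne (g x) 0 with hx | hx
    · simp [hx]
    refine HahnSeries.coeff_eq_zero_of_lt_order ?_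
    rw [hord x hx]
    refine lt_of_le_of_ne (hmin x (by simp [hx])) fun he => hxj ?_
    obtain ⟨a, ha⟩ := hdiv x hx
    obtain ⟨b, hb⟩ := hdiv j hj0
    have hd : (n : ℤ) ∣ ((x : ℕ) : ℤ) - ((j : ℕ) : ℤ) := ⟨a - b, by
      simp only [o] at he
      rw [ha, hb] at he
      linarith [he, mul_sub (n : ℤ) a b]⟩
    have hx' := x.isLt
    have hj' := j.isLt
    have := Int.eq_zero_of_abs_lt_dvd hd (by rw [abs_lt]; omega)
    exact Fin.ext (by omega)
  · exact fun h0 => absurd (Finset.mem_univ j) h0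

end Series

end Fermat.Agent.BAD
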