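import Fermat.Prelude.Def_AlgebraicCurve_Correspondence
import Fermat.Prelude.Def_AlgebraicCurve_Repartitions
import Mathlib.RingTheory.Valuation.ValuationSubring

/-!
# The two-component datum of level `M q` at `q`

Abstract hypotheses for the reduction of `X₀(Mq)` at a prime `q ∤ M`: two Gauss reductions
`P₁, P₂` of the function field `F` of level `Mq` with residue field the function field `C` of
level `M` in characteristic `q`, related to the two degeneracy embeddings `α, β` of the function
field `E` of level `M` by the identity and by the relative Frobenius `φ`.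
-/

set_option autoImplicit false

noncomputable section

open AlgebraicCurve

namespace Fermat.Agent.BAD

/-- A scaled residue map: a subring `G` of `F` with a residue map to `C` such that every nonzero
function is a constant multiple of an element with nonzero residue. -/
structure ScalePair {L k : Type} [Field L] [Field k] (A : ValuationSubring L) (π : A →+* k)
    (F C : Type) [Field F] [Algebra L F] [Field C] [Algebra k C] where
  G : Subring F
  algebraMap_mem : ∀ a : A, algebraMap L F a ∈ G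
  red : G →+* C
  red_algebraMap : ∀ a : A, red ⟨algebraMap L F a, algebraMap_mem a⟩ = algebraMap k C (π a)
  inv_mem : ∀ u : G, red u ≠ 0 → (u : F)⁻¹ ∈ G
  exists_eq_smul : ∀ x : F, x ≠ 0 → ∃ (c : L) (u : G), red u ≠ 0 ∧ x = c • (u : F)

namespace ScalePair

variable {L k : Type} [Field L] [Field k] {A : ValuationSubring L} {π : A →+* k}
  {F C : Type} [Field F] [Algebra L F] [Field C] [Algebra k C] (P : ScalePair A π F C)

/-- constants of `A` inside the integral ring -/
def const : A →+* P.G :=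
  ((algebraMap L F).comp A.subtype).codRestrict P.G fun a => P.algebraMap_mem a

@[simp]
theorem coe_const (a : A) : (P.const a : F) = algebraMap L F a := rfl

theorem red_const (a : A) : P.red (P.const a) = algebraMap k C (π a) := P.red_algebraMap a

end ScalePair

/-- Hypotheses on the two-component reduction. `τ` is the coefficientwise `q`-Frobenius of `C`;
the relative Frobenius is `φ x = (τ⁻¹ x) ^ q`. -/
structure NodalDatum {L k : Type} [Field L] [Field k] (A : ValuationSubring L) (π : A →+* k)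
    (F E C : Type) [Field F] [Field E] [Field C] [Algebra L F] [Algebra L E] [Algebra k C] where
  q : ℕ
  hq : q.Prime
  charP : CharP k q
  algClosed : IsAlgClosed L
  algClosedResidue : IsAlgClosed k
  hπ : Function.Surjective π
  hrank : ∀ a c : A, π a = 0 → (c : L) ≠ 0 → ∃ n, c ∣ a ^ n
  principalF : HasPrincipalDivisors L F
  constE : ∀ x : E, x ≠ 0 → (∀ v : Place L E, v.ord x = 0) → ∃ c : L, x = algebraMap L E c
  PE : ScalePair A π E C
  P₁ : ScalePair A π F C
  P₂ : ScalePair A π F C
  τ : SemilinearAut k C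
  τ_base : ∀ a : k, SemilinearAut.baseAut τ a = a ^ q
  α : E →ₐ[L] F
  β : E →ₐ[L] F
  integralα : α.toRingHom.IsIntegral
  integralβ : β.toRingHom.IsIntegral
  finiteα : FiniteAlong L α
  finiteβ : FiniteAlong L β
  finrankα : finrankAlong L α = q + 1
  finrankβ : finrankAlong L β = q + 1
  normα : NormFormulaAlong L α finiteα
  normβ : NormFormulaAlong L β finiteβ
  /-- `α` reduces to the identity on the first component and to `φ` on the second -/
  α_mem₁ : ∀ x : PE.G, α (x : E) ∈ P₁.G
  α_red₁ : ∀ x : PE.G, P₁.red ⟨α (x : E), α_mem₁ x⟩ = PE.red x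
  α_mem₂ : ∀ x : PE.G, α (x : E) ∈ P₂.G
  α_red₂ : ∀ x : PE.G, P₂.red ⟨α (x : E), α_mem₂ x⟩ = (τ⁻¹ • PE.red x) ^ q
  /-- `β` reduces to `φ` on the first component and to the identity on the second -/
  β_mem₁ : ∀ x : PE.G, β (x : E) ∈ P₁.G
  β_red₁ : ∀ x : PE.G, P₁.red ⟨β (x : E), β_mem₁ x⟩ = (τ⁻¹ • PE.red x) ^ q
  β_mem₂ : ∀ x : PE.G, β (x : E) ∈ P₂.G
  β_red₂ : ∀ x : PE.G, P₂.red ⟨β (x : E), β_mem₂ x⟩ = PE.red x
  /-- the coordinate `j` -/
  jE : PE.G
  τ_J : τ • PE.red jE = PE.red jE
  /-- the reduction of `j` has a simple pole at the cusp, so is no `q`-th power -/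
  J_not_pow : ∀ b : C, b ^ q ≠ PE.red jE

namespace NodalDatum

variable {L k : Type} [Field L] [Field k] {A : ValuationSubring L} {π : A →+* k}
variable {F E C : Type} [Field F] [Field E] [Field C] [Algebra L F] [Algebra L E] [Algebra k C]

/-- The datum with the two components exchanged. -/
def swap (Δ : NodalDatum A π F E C) : NodalDatum A π F E C :=
  { Δ with
    P₁ := Δ.P₂
    P₂ := Δ.P₁
    α := Δ.β
    β := Δ.α
    integralα := Δ.integralβ
    integralβ := Δ.integralα
    finiteα := Δ.finiteβ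
    finiteβ := Δ.finiteα
    finrankα := Δ.finrankβ
    finrankβ := Δ.finrankα
    normα := Δ.normβ
    normβ := Δ.normα
    α_mem₁ := Δ.β_mem₂
    α_red₁ := Δ.β_red₂
    α_mem₂ := Δ.β_mem₁
    α_red₂ := Δ.β_red₁
    β_mem₁ := Δ.α_mem₂
    β_red₁ := Δ.α_red₂
    β_mem₂ := Δ.α_mem₁
    β_red₂ := Δ.α_red₁ }

/-- A semilinear automorphism of `F` compatible with both reductions and inducing `χ` on `C`. -/
structure RedAction (Δ : NodalDatum A π F E C) (σ : SemilinearAut L F)
    (χ : SemilinearAut k C) : Prop where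
  base_mem : ∀ a : A, SemilinearAut.baseAut σ (a : L) ∈ A
  base_map : ∀ a : A,
    π ⟨SemilinearAut.baseAut σ (a : L), base_mem a⟩ = SemilinearAut.baseAut χ (π a)
  mem₁ : ∀ x : Δ.P₁.G, σ • (x : F) ∈ Δ.P₁.G
  red₁ : ∀ x : Δ.P₁.G, Δ.P₁.red ⟨σ • (x : F), mem₁ x⟩ = χ • Δ.P₁.red x
  mem₂ : ∀ x : Δ.P₂.G, σ • (x : F) ∈ Δ.P₂.G
  red₂ : ∀ x : Δ.P₂.G, Δ.P₂.red ⟨σ • (x : F), mem₂ x⟩ = χ • Δ.P₂.red x

theorem RedAction.swap {Δ : NodalDatum A π F E C} {σ : SemilinearAut L F}
    {χ : SemilinearAut k C} (h : Δ.RedAction σ χ) : Δ.swap.RedAction σ χ where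
  base_mem := h.base_mem
  base_map := h.base_map
  mem₁ := h.mem₂
  red₁ := h.red₂
  mem₂ := h.mem₁
  red₂ := h.red₁

theorem RedAction.mul {Δ : NodalDatum A π F E C} {σ σ' : SemilinearAut L F}
    {χ χ' : SemilinearAut k C} (h : Δ.RedAction σ χ) (h' : Δ.RedAction σ' χ') :
    Δ.RedAction (σ * σ') (χ * χ') where
  base_mem a := h.base_mem ⟨_, h'.base_mem a⟩
  base_map a := (h.base_map ⟨_, h'.base_mem a⟩).trans
    (congrArg (SemilinearAut.baseAut χ) (h'.base_map a))
  mem₁ x := by rw [mul_smul]; exact h.mem₁ ⟨_, h'.mem₁ x⟩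
  red₁ x := by
    simp only [mul_smul]
    exact (h.red₁ ⟨_, h'.mem₁ x⟩).trans (congrArg (χ • ·) (h'.red₁ x))
  mem₂ x := by rw [mul_smul]; exact h.mem₂ ⟨_, h'.mem₂ x⟩
  red₂ x := by
    simp only [mul_smul]
    exact (h.red₂ ⟨_, h'.mem₂ x⟩).trans (congrArg (χ • ·) (h'.red₂ x))

/-- A class killed by both pushforwards to level `M` (the `q`-new classes). -/
def IsPushTrivial (Δ : NodalDatum A π F E C) (z : Pic0 L F) : Prop :=
  ∃ D : Divisor.degZero (K := L) (F := F), Pic0.mk D = z ∧
    Divisor.IsPrincipal (Divisor.pushforwardAlong Δ.α Δ.integralα (D : Divisor L F)) ∧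
    Divisor.IsPrincipal (Divisor.pushforwardAlong Δ.β Δ.integralβ (D : Divisor L F))

end NodalDatum

end Fermat.Agent.BAD
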