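import Fermat.Prelude.Def_ModularCurve_LaurentCoeff
import Mathlib.RingTheory.Valuation.ValuationSubring
import Mathlib.FieldTheory.IntermediateField.Adjoin.Basic
import Mathlib.RingTheory.Int.Basic

/-!
# Gauss reduction of subfields of `L((q))`

`gaussRing π` consists of the series `y` with `b * y = a` for series `a`, `b` with coefficients
in `A` and `b` not reducing to `0`; `gaussRed π` is the residue map `y ↦ ā / b̄`.  On a field
embedded into the field generated over `L` by the series with integer coefficients this gives a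
valuation subring in which every nonzero element can be scaled to a unit.
-/

set_option autoImplicit false

noncomputable section

open ModularCurve

namespace Fermat.Agent.BAD.Gauss

variable {L k : Type*} [Field L] [Field k] {A : ValuationSubring L} (π : A →+* k)

/-- `y` is the quotient of `a` by `b`, and `b` does not reduce to zero. -/
def IsFrac (a b : LaurentSeries A) (y : LaurentSeries L) : Prop :=
  coeffMap π b ≠ 0 ∧ coeffMap A.subtype b * y = coeffMap A.subtype a

theorem coeffMap_subtype_injective (A : ValuationSubring L) :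
    Function.Injective (coeffMap A.subtype : LaurentSeries A → LaurentSeries L) := fun a b h => by
  ext n
  simpa using congrArg (fun s : LaurentSeries L => s.coeff n) h

variable {π}

theorem coeffMap_subtype_ne_zero {b : LaurentSeries A} (hb : coeffMap π b ≠ 0) :
    coeffMap A.subtype b ≠ 0 := by
  rw [← map_zero (coeffMap A.subtype)]
  exact fun h => hb (by rw [coeffMap_subtype_injective A h, map_zero])

theorem IsFrac.red_congr {a b a' b' : LaurentSeries A} {y : LaurentSeries L}
    (h : IsFrac π a b y) (h' : IsFrac π a' b' y) :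
    coeffMap π a / coeffMap π b =
      coeffMap π a' / coeffMap π b' := by
  have he : a * b' = a' * b := coeffMap_subtype_injective A (by
    rw [map_mul, map_mul, ← h.2, ← h'.2]; ring)
  rw [div_eq_div_iff h.1 h'.1, ← map_mul, ← map_mul, he]

theorem IsFrac.mul {a b a' b' : LaurentSeries A} {y y' : LaurentSeries L}
    (h : IsFrac π a b y) (h' : IsFrac π a' b' y') : IsFrac π (a * a') (b * b') (y * y') := by
  refine ⟨by rw [map_mul]; exact mul_ne_zero h.1 h'.1, ?_⟩
  rw [map_mul, map_mul, ← h.2, ← h'.2]; ring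

theorem IsFrac.add {a b a' b' : LaurentSeries A} {y y' : LaurentSeries L}
    (h : IsFrac π a b y) (h' : IsFrac π a' b' y') :
    IsFrac π (a * b' + a' * b) (b * b') (y + y') := by
  refine ⟨by rw [map_mul]; exact mul_ne_zero h.1 h'.1, ?_⟩
  rw [map_mul, map_add, map_mul, map_mul, ← h.2, ← h'.2]; ring

theorem IsFrac.neg {a b : LaurentSeries A} {y : LaurentSeries L}
    (h : IsFrac π a b y) : IsFrac π (-a) b (-y) :=
  ⟨h.1, by rw [mul_neg, h.2, map_neg]⟩

theorem isFrac_coeffMap (a : LaurentSeries A) : IsFrac π a 1 (coeffMap A.subtype a) :=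
  ⟨by rw [map_one]; exact one_ne_zero, by rw [map_one, one_mul]⟩

variable (π)

/-- The integral series of `L((q))` for the Gauss valuation. -/
def gaussRing : Subring (LaurentSeries L) where
  carrier := {y | ∃ a b, IsFrac π a b y}
  zero_mem' := ⟨_, _, map_zero (coeffMap A.subtype) ▸ isFrac_coeffMap (A := A) 0⟩
  one_mem' := ⟨_, _, map_one (coeffMap A.subtype) ▸ isFrac_coeffMap (A := A) 1⟩
  add_mem' := fun ⟨_, _, h⟩ ⟨_, _, h'⟩ => ⟨_, _, h.add h'⟩
  mul_mem' := fun ⟨_, _, h⟩ ⟨_, _, h'⟩ => ⟨_, _, h.mul h'⟩
  neg_mem' := fun ⟨_, _, h⟩ => ⟨_, _, h.neg⟩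

variable {π}

/-- numerator of a chosen presentation -/
def num (y : gaussRing π) : LaurentSeries A := y.2.choose

/-- denominator of a chosen presentation -/
def den (y : gaussRing π) : LaurentSeries A := y.2.choose_spec.choose

theorem isFrac_num_den (y : gaussRing π) : IsFrac π (num y) (den y) y :=
  y.2.choose_spec.choose_spec

/-- the residue as a function -/
def redFun (y : gaussRing π) : LaurentSeries k :=
  coeffMap π (num y) / coeffMap π (den y)

theorem redFun_eq {y : gaussRing π} {a b : LaurentSeries A} (h : IsFrac π a b y) :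
    redFun y = coeffMap π a / coeffMap π b :=
  (isFrac_num_den y).red_congr h

variable (π)

/-- The residue map of the Gauss valuation. -/
def gaussRed : gaussRing π →+* LaurentSeries k where
  toFun := redFun
  map_one' := by
    rw [redFun_eq (y := (1 : gaussRing π)) (a := 1) (b := 1)
      ⟨by rw [map_one]; exact one_ne_zero, by simp⟩]
    simp
  map_mul' y y' := by
    rw [redFun_eq (y := y * y') ((isFrac_num_den y).mul (isFrac_num_den y')), map_mul, map_mul,
      redFun, redFun, div_mul_div_comm]
  map_zero' := by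
    rw [redFun_eq (y := (0 : gaussRing π)) (a := 0) (b := 1)
      ⟨by rw [map_one]; exact one_ne_zero, by simp⟩]
    simp
  map_add' y y' := by
    rw [redFun_eq (y := y + y') ((isFrac_num_den y).add (isFrac_num_den y')), map_add, map_mul,
      map_mul, map_mul, redFun, redFun, div_add_div _ _ (isFrac_num_den y).1 (isFrac_num_den y').1]
    ring

variable {π}

theorem gaussRed_eq {y : LaurentSeries L} (hy : y ∈ gaussRing π) {a b : LaurentSeries A}
    (h : IsFrac π a b y) :
    gaussRed π ⟨y, hy⟩ = coeffMap π a / coeffMap π b :=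
  redFun_eq h

theorem coeffMap_mem_gaussRing (a : LaurentSeries A) : coeffMap A.subtype a ∈ gaussRing π :=
  ⟨a, 1, isFrac_coeffMap a⟩

theorem gaussRed_coeffMap (a : LaurentSeries A) (h : coeffMap A.subtype a ∈ gaussRing π) :
    gaussRed π ⟨_, h⟩ = coeffMap π a := by
  rw [gaussRed_eq h (isFrac_coeffMap a), map_one, div_one]

theorem algebraMap_mem_gaussRing (a : A) :
    algebraMap L (LaurentSeries L) (a : L) ∈ gaussRing π := by
  rw [algebraMap_laurentSeries_eq_single, show (a : L) = A.subtype a from rfl, ← coeffMap_single]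
  exact coeffMap_mem_gaussRing _

theorem gaussRed_algebraMap (a : A) :
    gaussRed π ⟨_, algebraMap_mem_gaussRing a⟩ =
      algebraMap k (LaurentSeries k) (π a) := by
  have h : IsFrac π (HahnSeries.single 0 a) 1 (algebraMap L (LaurentSeries L) (a : L)) := by
    rw [algebraMap_laurentSeries_eq_single, show (a : L) = A.subtype a from rfl, ← coeffMap_single]
    exact isFrac_coeffMap _
  rw [gaussRed_eq _ h, map_one, div_one, coeffMap_single, algebraMap_laurentSeries_eq_single]

theorem inv_mem_gaussRing {y : gaussRing π} (h : gaussRed π y ≠ 0) :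
    (y : LaurentSeries L)⁻¹ ∈ gaussRing π := by
  obtain ⟨hb, he⟩ := isFrac_num_den y
  have ha : coeffMap π (num y) ≠ 0 := fun h0 => h (by
    show coeffMap π (num y) / _ = 0
    rw [h0, zero_div])
  have hy0 : (y : LaurentSeries L) ≠ 0 := fun h0 =>
    coeffMap_subtype_ne_zero ha (by rw [← he, h0, mul_zero])
  exact ⟨den y, num y, ha, by rw [← he, mul_assoc, mul_inv_cancel₀ hy0, mul_one]⟩

section Coeff

variable (σ : A →+* A) (σL : L →+* L) (χ : k →+* k)

theorem IsFrac.map (hσ : ∀ a : A, ((σ a : A) : L) = σL a)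
    (hχ : ∀ a : A, π (σ a) = χ (π a))
    {a b : LaurentSeries A} {y : LaurentSeries L} (h : IsFrac π a b y) :
    IsFrac π (coeffMap σ a) (coeffMap σ b) (coeffMap σL y) := by
  have hs : ∀ z : LaurentSeries A,
      coeffMap A.subtype (coeffMap σ z) = coeffMap σL (coeffMap A.subtype z) := fun z => by
    rw [coeffMap_coeffMap, coeffMap_coeffMap]
    exact coeffMap_congr (RingHom.ext hσ) z
  refine ⟨?_, by rw [hs, hs, ← h.2, map_mul]⟩
  rw [coeffMap_coeffMap, coeffMap_congr (g := χ.comp π) (RingHom.ext hχ),
    ← coeffMap_coeffMap]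
  intro h0
  refine h.1 ?_
  ext n
  have := congrArg (fun s : LaurentSeries k => s.coeff n) h0
  simpa using this

theorem coeffMap_mem_gaussRing_of_mem (hσ : ∀ a : A, ((σ a : A) : L) = σL a)
    (hχ : ∀ a : A, π (σ a) = χ (π a)) (y : gaussRing π) :
    coeffMap σL (y : LaurentSeries L) ∈ gaussRing π :=
  ⟨_, _, (isFrac_num_den y).map σ σL χ hσ hχ⟩

theorem gaussRed_coeffMap_smul (hσ : ∀ a : A, ((σ a : A) : L) = σL a)
    (hχ : ∀ a : A, π (σ a) = χ (π a)) (y : gaussRing π) :
    gaussRed π ⟨_, coeffMap_mem_gaussRing_of_mem σ σL χ hσ hχ y⟩ =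
      coeffMap χ (gaussRed π y) := by
  rw [gaussRed_eq _ ((isFrac_num_den y).map σ σL χ hσ hχ), coeffMap_coeffMap, coeffMap_coeffMap,
    show gaussRed π y = redFun y from rfl, redFun, map_div₀, coeffMap_coeffMap, coeffMap_coeffMap,
    coeffMap_congr (g := χ.comp π) (RingHom.ext hχ) (num y),
    coeffMap_congr (g := χ.comp π) (RingHom.ext hχ) (den y)]

end Coeff

/-! ### Series with integer coefficients -/

/-- A series with integer coefficients, in any ring. -/
def castSeries (R : Type*) [CommRing R] : LaurentSeries ℤ →+* LaurentSeries R :=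
  coeffMap (Int.castRingHom R)

@[simp]
theorem castSeries_coeff (R : Type*) [CommRing R] (s : LaurentSeries ℤ) (n : ℤ) :
    (castSeries R s).coeff n = (s.coeff n : R) := rfl

theorem coeffMap_castSeries {R S : Type*} [CommRing R] [CommRing S] (f : R →+* S)
    (s : LaurentSeries ℤ) : coeffMap f (castSeries R s) = castSeries S s := by
  ext n; simp

variable (π) in
/-- the residue characteristic is `q` -/
def ResChar (q : ℕ) : Prop := ∀ n : ℤ, π (n : A) = 0 ↔ (q : ℤ) ∣ n

theorem exists_content {q : ℕ} (hq : 2 ≤ q) {s : LaurentSeries ℤ} (hs : s ≠ 0) :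
    ∃ (m : ℕ) (s' : LaurentSeries ℤ) (n₀ : ℤ),
      s = HahnSeries.C ((q : ℤ) ^ m) * s' ∧ ¬ (q : ℤ) ∣ s'.coeff n₀ := by
  obtain ⟨n₁, hn₁⟩ : ∃ n, s.coeff n ≠ 0 := by
    by_contra h
    push Not at h
    exact hs (by ext n; simpa using h n)
  suffices ∀ (j : ℕ) (s : LaurentSeries ℤ), (s.coeff n₁).natAbs = j → j ≠ 0 →
      ∃ (m : ℕ) (s' : LaurentSeries ℤ) (n₀ : ℤ),
        s = HahnSeries.C ((q : ℤ) ^ m) * s' ∧ ¬ (q : ℤ) ∣ s'.coeff n₀ from
    this _ s rfl (Int.natAbs_ne_zero.mpr hn₁)
  intro j
  induction j using Nat.strong_induction_on with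
  | _ j ih =>
    intro s hj hj0
    by_cases h : ∃ n, ¬ (q : ℤ) ∣ s.coeff n
    · obtain ⟨n, hn⟩ := h
      exact ⟨0, s, n, by simp, hn⟩
    · push Not at h
      let s₂ : LaurentSeries ℤ :=
        { coeff := fun n => s.coeff n / q
          isPWO_support' := s.isPWO_support.mono fun n hn h0 => hn (by simp [h0]) }
      have hs₂ : ∀ n, s.coeff n = (q : ℤ) * s₂.coeff n := fun n =>
        (Int.mul_ediv_cancel' (h n)).symm
      have hj₂ : j = q * (s₂.coeff n₁).natAbs := by
        rw [← hj, hs₂, Int.natAbs_mul, Int.natAbs_natCast]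
      have hne : (s₂.coeff n₁).natAbs ≠ 0 := fun h0 => hj0 (by rw [hj₂, h0, mul_zero])
      have hlt : (s₂.coeff n₁).natAbs < j := by
        rw [hj₂]
        exact lt_mul_left (Nat.pos_of_ne_zero hne) hq
      obtain ⟨m, s', n₀, he, hn₀⟩ := ih _ hlt s₂ rfl hne
      refine ⟨m + 1, s', n₀, ?_, hn₀⟩
      rw [pow_succ', map_mul, mul_assoc, ← he]
      ext n
      rw [HahnSeries.C_mul_eq_smul, HahnSeries.coeff_smul, smul_eq_mul, hs₂ n]

variable {q : ℕ}

theorem exists_scale_sum (hq : 2 ≤ q) (hA : ResChar π q) :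
    ∀ (n : ℕ) (s : Fin n → LaurentSeries ℤ) (c : Fin n → L),
      (∑ i, HahnSeries.C (c i) * castSeries L (s i)) ≠ 0 →
      ∃ (d : L) (a : LaurentSeries A), d ≠ 0 ∧ coeffMap π a ≠ 0 ∧
        coeffMap A.subtype a = HahnSeries.C d * ∑ i, HahnSeries.C (c i) * castSeries L (s i) := by
  intro n
  induction n with
  | zero => intro s c h; simp at h
  | succ n ih =>
    intro s c
    rw [Fin.sum_univ_succ]
    intro hy
    by_cases hs0 : s 0 = 0
    · rw [hs0, map_zero, mul_zero, zero_add] at hy ⊢
      exact ih _ _ hy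
    obtain ⟨m, s', n₀, hs', hn₀⟩ := exists_content hq hs0
    set u : ℤ := s'.coeff n₀
    have hu : π (u : A) ≠ 0 := fun h => hn₀ ((hA u).mp h)
    have huL : (u : L) ≠ 0 := fun h => hu (by
      rw [show (u : A) = 0 from Subtype.ext (by simpa using h), map_zero])
    let t : Fin n → LaurentSeries ℤ := fun i =>
      HahnSeries.C u * s i.succ - HahnSeries.C ((s i.succ).coeff n₀) * s'
    set X : L := c 0 * (q : L) ^ m * u + ∑ i : Fin n, c i.succ * ((s i.succ).coeff n₀ : L) with hX
    set y := HahnSeries.C (c 0) * castSeries L (s 0) +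
      ∑ i : Fin n, HahnSeries.C (c i.succ) * castSeries L (s i.succ) with hydef
    set T := ∑ i : Fin n, HahnSeries.C (c i.succ) * castSeries L (t i) with hT
    set S := castSeries L s' with hS
    have hC : ∀ z : ℤ, castSeries L (HahnSeries.C z) = HahnSeries.C (z : L) := fun z =>
      coeffMap_single _ _ _
    have key : HahnSeries.C (u : L) * y = HahnSeries.C X * S + T := by
      have h1 : T = ∑ i : Fin n, HahnSeries.C (c i.succ) *
          (HahnSeries.C (u : L) * castSeries L (s i.succ) -
            HahnSeries.C ((s i.succ).coeff n₀ : L) * S) :=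
        Finset.sum_congr rfl fun i _ => by rw [map_sub, map_mul, map_mul, hC, hC]
      rw [h1, hX, map_add, map_sum, add_mul, Finset.sum_mul, add_assoc, ← Finset.sum_add_distrib,
        hydef, mul_add, Finset.mul_sum, hs', map_mul, hC]
      push_cast
      congr 1
      · simp only [map_mul, map_pow, hS]; ring
      · exact Finset.sum_congr rfl fun i _ => by simp only [map_mul]; ring
    by_cases hT0 : T = 0
    · rw [hT0, add_zero] at key
      have hXne : X ≠ 0 := by
        rintro h0
        rw [h0, map_zero, zero_mul, mul_eq_zero] at key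
        exact key.elim (fun h => huL (HahnSeries.C_injective (h.trans (map_zero _).symm))) hy
      refine ⟨(u : L) / X, castSeries A s', div_ne_zero huL hXne, ?_, ?_⟩
      · intro h
        refine hu ?_
        have := congrArg (fun z => z.coeff n₀) h
        simpa using this
      · rw [coeffMap_castSeries, ← hS, div_eq_inv_mul, map_mul, mul_assoc, key, ← mul_assoc,
          ← map_mul, inv_mul_cancel₀ hXne, map_one, one_mul]
    · obtain ⟨d, a, hd, hra, ha⟩ := ih t (fun i => c i.succ) hT0
      have ht0 : ∀ i, (t i).coeff n₀ = 0 := fun i => by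
        simp only [t, HahnSeries.coeff_sub, HahnSeries.C_mul_eq_smul, HahnSeries.coeff_smul,
          smul_eq_mul, u]
        ring
      have ha0 : a.coeff n₀ = 0 := by
        apply Subtype.ext
        have := congrArg (fun z => z.coeff n₀) ha
        simp only [coeffMap_coeff, HahnSeries.C_mul_eq_smul, HahnSeries.coeff_smul, smul_eq_mul,
          HahnSeries.coeff_sum, castSeries_coeff, ht0, Int.cast_zero, mul_zero,
          Finset.sum_const_zero] at this
        exact this
      rw [← hT] at ha
      have hCA : ∀ w : A, coeffMap A.subtype (HahnSeries.C w) = HahnSeries.C (w : L) := fun w =>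
        coeffMap_single _ _ _
      have hCκ : ∀ w : A, coeffMap π (HahnSeries.C w) =
          HahnSeries.C (π w) := fun w => coeffMap_single _ _ _
      by_cases hXd : X * d ∈ A
      · refine ⟨d * u, HahnSeries.C (⟨_, hXd⟩ : A) * castSeries A s' + a,
          mul_ne_zero hd huL, ?_, ?_⟩
        · intro h
          rw [map_add, map_mul, hCκ] at h
          by_cases hr : π (⟨_, hXd⟩ : A) = 0
          · rw [hr, map_zero, zero_mul, zero_add] at h
            exact hra h
          · have h' := congrArg (fun z => z.coeff n₀) h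
            simp only [HahnSeries.coeff_add, HahnSeries.C_mul_eq_smul, HahnSeries.coeff_smul,
              smul_eq_mul, coeffMap_coeff, castSeries_coeff, ha0, map_zero, add_zero,
              HahnSeries.coeff_zero] at h'
            exact mul_ne_zero hr hu h'
        · rw [map_add, map_mul, coeffMap_castSeries, ha, ← hS, hCA]
          simp only [map_mul]
          rw [mul_assoc (HahnSeries.C d) (HahnSeries.C (u : L)), key]
          ring
      · have hXd0 : X * d ≠ 0 := fun h0 => hXd (h0 ▸ A.zero_mem)
        have hw : (X * d)⁻¹ ∈ A := (A.mem_or_inv_mem _).resolve_left hXd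
        refine ⟨u / X, castSeries A s' + HahnSeries.C (⟨_, hw⟩ : A) * a,
          div_ne_zero huL (left_ne_zero_of_mul hXd0), ?_, ?_⟩
        · intro h
          have h' := congrArg (fun z => z.coeff n₀) h
          simp only [map_add, HahnSeries.coeff_add, HahnSeries.C_mul_eq_smul,
            HahnSeries.coeff_smul, smul_eq_mul, coeffMap_coeff, castSeries_coeff, ha0, map_zero,
            mul_zero, add_zero, HahnSeries.coeff_zero] at h'
          exact hu h'
        · rw [map_add, map_mul, coeffMap_castSeries, ha, ← hS, hCA, div_eq_inv_mul, map_mul,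
            mul_assoc, key, mul_add, ← mul_assoc (HahnSeries.C X⁻¹), ← map_mul,
            inv_mul_cancel₀ (left_ne_zero_of_mul hXd0), map_one, one_mul, ← mul_assoc, ← map_mul]
          congr 2
          field_simp

/-- Combinations over `L` of series with integer coefficients. -/
def IsIntComb (y : LaurentSeries L) : Prop :=
  ∃ (n : ℕ) (s : Fin n → LaurentSeries ℤ) (c : Fin n → L),
    y = ∑ i, HahnSeries.C (c i) * castSeries L (s i)

theorem IsIntComb.of_mul_castSeries (c : L) (s : LaurentSeries ℤ) :
    IsIntComb (HahnSeries.C c * castSeries L s) :=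
  ⟨1, fun _ => s, fun _ => c, by simp⟩

theorem IsIntComb.add {y y' : LaurentSeries L} (h : IsIntComb y) (h' : IsIntComb y') :
    IsIntComb (y + y') := by
  obtain ⟨n, s, c, rfl⟩ := h
  obtain ⟨n', s', c', rfl⟩ := h'
  refine ⟨n + n', Fin.append s s', Fin.append c c', ?_⟩
  rw [Fin.sum_univ_add]
  simp [Fin.append_left, Fin.append_right]

theorem IsIntComb.sum {ι : Type*} (t : Finset ι) {f : ι → LaurentSeries L}
    (h : ∀ i ∈ t, IsIntComb (f i)) : IsIntComb (∑ i ∈ t, f i) := by
  classical
  induction t using Finset.induction_on with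
  | empty => exact ⟨0, Fin.elim0, Fin.elim0, by simp⟩
  | insert a t ha ih =>
    rw [Finset.sum_insert ha]
    exact (h a (Finset.mem_insert_self _ _)).add
      (ih fun i hi => h i (Finset.mem_insert_of_mem hi))

theorem IsIntComb.mul {y y' : LaurentSeries L} (h : IsIntComb y) (h' : IsIntComb y') :
    IsIntComb (y * y') := by
  obtain ⟨n, s, c, rfl⟩ := h
  obtain ⟨n', s', c', rfl⟩ := h'
  rw [Finset.sum_mul_sum]
  refine IsIntComb.sum _ fun i _ => IsIntComb.sum _ fun j _ => ?_
  rw [mul_mul_mul_comm, ← map_mul, ← map_mul]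
  exact IsIntComb.of_mul_castSeries _ _

theorem IsIntComb.exists_scale (hq : 2 ≤ q) (hA : ResChar π q) {y : LaurentSeries L}
    (hy : IsIntComb y) (hy0 : y ≠ 0) :
    ∃ (d : L) (a : LaurentSeries A), d ≠ 0 ∧ coeffMap π a ≠ 0 ∧
      coeffMap A.subtype a = HahnSeries.C d * y := by
  obtain ⟨n, s, c, rfl⟩ := hy
  exact exists_scale_sum hq hA n s c hy0

theorem algebraMap_eq_C (c : L) :
    algebraMap L (LaurentSeries L) c = HahnSeries.C c := by
  rw [algebraMap_laurentSeries_eq_single, HahnSeries.C_apply]

variable (L) in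
/-- The field generated over `L` by the series with integer coefficients. -/
def intField : IntermediateField L (LaurentSeries L) :=
  IntermediateField.adjoin L (Set.range (castSeries L))

theorem castSeries_mem_intField (s : LaurentSeries ℤ) : castSeries L s ∈ intField L :=
  IntermediateField.subset_adjoin L _ ⟨s, rfl⟩

theorem isIntComb_of_mem_adjoin {z : LaurentSeries L}
    (hz : z ∈ Algebra.adjoin L (Set.range (castSeries L))) : IsIntComb z := by
  induction hz using Algebra.adjoin_induction with
  | mem x hx =>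
    obtain ⟨s, rfl⟩ := hx
    simpa using IsIntComb.of_mul_castSeries (L := L) 1 s
  | algebraMap c => simpa [algebraMap_eq_C] using IsIntComb.of_mul_castSeries c 1
  | add x y _ _ hx hy => exact hx.add hy
  | mul x y _ _ hx hy => exact hx.mul hy

theorem exists_frac_of_mem_intField (hq : 2 ≤ q) (hA : ResChar π q) {y : LaurentSeries L}
    (hy : y ∈ intField L) (hy0 : y ≠ 0) :
    ∃ (d : L) (a b : LaurentSeries A), coeffMap π a ≠ 0 ∧
      IsFrac π a b (HahnSeries.C d * y) := by
  obtain ⟨r, hr, s, hs, rfl⟩ := IntermediateField.mem_adjoin_iff_div.mp hy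
  obtain ⟨hr0, hs0⟩ := div_ne_zero_iff.mp hy0
  obtain ⟨d, a, hd, ha, hda⟩ := (isIntComb_of_mem_adjoin hr).exists_scale hq hA hr0
  obtain ⟨e, b, he, hb, heb⟩ := (isIntComb_of_mem_adjoin hs).exists_scale hq hA hs0
  refine ⟨d / e, a, b, ha, hb, ?_⟩
  rw [heb, hda, map_div₀]
  have hCe : (HahnSeries.C e : LaurentSeries L) ≠ 0 := (map_ne_zero _).mpr he
  field_simp

/-! ### Pull back to a field -/

section Pullback

variable {F : Type*} [Field F] [Algebra L F] (e : F →ₐ[L] LaurentSeries L)

variable (π) in
/-- Every nonzero element has a multiple by a constant with nonzero reduction. -/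
def Scalable : Prop :=
  ∀ f : F, f ≠ 0 → ∃ (c : L) (h : e (c • f) ∈ gaussRing π), gaussRed π ⟨_, h⟩ ≠ 0

theorem smul_eq_C_mul (c : L) (f : F) : e (c • f) = HahnSeries.C c * e f := by
  rw [Algebra.smul_def, map_mul, AlgHom.commutes, algebraMap_eq_C]

theorem scalable_of_mem_intField (hq : 2 ≤ q) (hA : ResChar π q)
    (he : ∀ f, e f ∈ intField L) : Scalable π e := by
  intro f hf
  obtain ⟨d, a, b, ha, h⟩ := exists_frac_of_mem_intField hq hA (he f) ((map_ne_zero e).mpr hf)
  rw [← smul_eq_C_mul] at h
  have hm : e (d • f) ∈ gaussRing π := ⟨a, b, h⟩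
  refine ⟨d, hm, ?_⟩
  rw [gaussRed_eq hm h]
  exact div_ne_zero ha h.1

variable {e} (hsc : Scalable π e)
include hsc

theorem mem_or_inv_mem (f : F) : e f ∈ gaussRing π ∨ e f⁻¹ ∈ gaussRing π := by
  rcases eq_or_ne f 0 with rfl | hf
  · exact Or.inl (by rw [map_zero]; exact zero_mem _)
  obtain ⟨c, h, hr⟩ := hsc f hf
  have hc : c ≠ 0 := fun h0 => hr (by
    rw [show (⟨_, h⟩ : gaussRing π) = 0 from Subtype.ext (by simp [h0]), map_zero])
  have hcF : algebraMap L F c ≠ 0 := (map_ne_zero _).mpr hc
  by_cases hcA : c ∈ A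
  · right
    have e1 : e f⁻¹ = algebraMap L (LaurentSeries L) c * (e (c • f))⁻¹ := by
      rw [← map_inv₀ e, ← e.commutes c, ← map_mul, Algebra.smul_def, mul_inv, ← mul_assoc,
        mul_inv_cancel₀ hcF, one_mul]
    rw [e1]
    exact mul_mem (algebraMap_mem_gaussRing ⟨c, hcA⟩) (inv_mem_gaussRing (y := ⟨_, h⟩) hr)
  · left
    have hc' : c⁻¹ ∈ A := (A.mem_or_inv_mem c).resolve_left hcA
    have e1 : e f = algebraMap L (LaurentSeries L) c⁻¹ * e (c • f) := by
      rw [← e.commutes c⁻¹, ← map_mul, Algebra.smul_def, ← mul_assoc, ← map_mul,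
        inv_mul_cancel₀ hc, map_one, one_mul]
    rw [e1]
    exact mul_mem (algebraMap_mem_gaussRing ⟨c⁻¹, hc'⟩) h

/-- The Gauss valuation ring of an embedded field. -/
def valRing : ValuationSubring F where
  toSubring := (gaussRing π).comap e.toRingHom
  mem_or_inv_mem' := mem_or_inv_mem hsc

theorem mem_valRing {f : F} : f ∈ valRing hsc ↔ e f ∈ gaussRing π := Iff.rfl

/-- The residue map of `valRing`. -/
def valRed : valRing hsc →+* LaurentSeries k :=
  (gaussRed π).comp ((e.toRingHom.comp (valRing hsc).subtype).codRestrict (gaussRing π)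
    fun f => f.2)

theorem valRed_apply (f : valRing hsc) : valRed hsc f = gaussRed π ⟨e f, f.2⟩ := rfl

theorem algebraMap_mem_valRing (a : A) : algebraMap L F (a : L) ∈ valRing hsc := by
  rw [mem_valRing, AlgHom.commutes]
  exact algebraMap_mem_gaussRing a

theorem valRed_algebraMap (a : A) :
    valRed hsc ⟨_, algebraMap_mem_valRing hsc a⟩ =
      algebraMap k (LaurentSeries k) (π a) := by
  rw [valRed_apply, ← gaussRed_algebraMap]
  congr 1
  exact Subtype.ext (e.commutes _)

theorem exists_scale_valRed {f : F} (hf : f ≠ 0) :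
    ∃ (c : L) (h : c • f ∈ valRing hsc), valRed hsc ⟨_, h⟩ ≠ 0 := by
  obtain ⟨c, h, hr⟩ := hsc f hf
  exact ⟨c, h, hr⟩

theorem valRed_of_isFrac {f : F} {a b : LaurentSeries A} (h : IsFrac π a b (e f))
    (hf : f ∈ valRing hsc) :
    valRed hsc ⟨f, hf⟩ = coeffMap π a / coeffMap π b :=
  gaussRed_eq _ h

theorem valRed_of_coeffMap {f : F} {a : LaurentSeries A} (h : coeffMap A.subtype a = e f)
    (hf : f ∈ valRing hsc) : valRed hsc ⟨f, hf⟩ = coeffMap π a := by
  rw [valRed_of_isFrac hsc (h ▸ isFrac_coeffMap a) hf, map_one, div_one]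

theorem mem_valRing_of_coeffMap {f : F} {a : LaurentSeries A}
    (h : coeffMap A.subtype a = e f) : f ∈ valRing hsc := by
  rw [mem_valRing, ← h]
  exact coeffMap_mem_gaussRing a

theorem castSeries_mem_valRing {f : F} {s : LaurentSeries ℤ} (h : e f = castSeries L s) :
    f ∈ valRing hsc :=
  mem_valRing_of_coeffMap hsc (a := castSeries A s) (by rw [coeffMap_castSeries, h])

theorem valRed_castSeries {f : F} {s : LaurentSeries ℤ} (h : e f = castSeries L s) :
    valRed hsc ⟨f, castSeries_mem_valRing hsc h⟩ = castSeries k s := by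
  rw [valRed_of_coeffMap hsc (a := castSeries A s) (by rw [coeffMap_castSeries, h]),
    coeffMap_castSeries]

end Pullback

end Fermat.Agent.BAD.Gauss
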