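import Fermat.Agent.BAD.NormRes
import Fermat.Agent.BAD.Core.Main

/-!
# Inertia and Frobenius on the torsion of a two-component reduction

The function-level theorems of `BAD/Core` on divisor classes.
-/

set_option autoImplicit false

noncomputable section

open AlgebraicCurve

namespace Fermat.Agent.BAD

variable {L k : Type} [Field L] [Field k] {A : ValuationSubring L} {π : A →+* k}
variable {F E C : Type} [Field F] [Field E] [Field C] [Algebra L F] [Algebra L E]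
  [Algebra k C]

theorem pic0_mk_eq_of_sub {D D' : Divisor.degZero (K := L) (F := F)}
    (h : Divisor.IsPrincipal ((D : Divisor L F) - (D' : Divisor L F))) :
    Pic0.mk D = Pic0.mk D' := by
  refine (QuotientAddGroup.eq_iff_sub_mem).mpr ?_
  rw [AddSubgroup.mem_addSubgroupOf]
  exact Divisor.mem_principal.mpr (by simpa using h)

/-- A relation of functions gives a relation of classes after dividing by `n`. -/
theorem isPrincipal_of_pow_relation {n : ℕ} (hn : n ≠ 0) {D : Divisor L F} {g a : F} {e : L}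
    (he : e ≠ 0) (ha : a ≠ 0) (hg : ∀ v : Place L F, v.ord g = (n : ℤ) * D v)
    (h : g = e • a ^ n) : Divisor.IsPrincipal D := by
  refine ⟨a, ha, fun v => ?_⟩
  have h' := hg v
  rw [h, Algebra.smul_def, v.ord_mul ((map_ne_zero _).mpr he) (pow_ne_zero _ ha), ord_const,
    zero_add, ← zpow_natCast, v.ord_zpow] at h'
  exact mul_left_cancel₀ (by exact_mod_cast hn) h'.symm

variable (D : BadCurve π F C)

/-- **Semistable monodromy**: inertia satisfies `(σ - 1)² = 0` on torsion prime to `q`. -/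
theorem BadCurve.inertia_sub_one_sq [IsAlgClosed L] [IsAlgClosed k]
    {σ : SemilinearAut L F} (hσ : D.Sym σ (RingEquiv.refl C))
    {n : ℕ} (hn : (n : k) ≠ 0) {z : Pic0 L F} (hz : n • z = 0) :
    σ • (σ • z - z) = σ • z - z := by
  have hn0 : n ≠ 0 := fun h => hn (by rw [h, Nat.cast_zero])
  obtain ⟨Z, rfl⟩ := Pic0.mk_surjective z
  have hz' : Pic0.mk (n • Z) = 0 := by
    show QuotientAddGroup.mk' _ (n • Z) = 0
    rw [map_nsmul]
    exact hz
  have hp := (QuotientAddGroup.eq_zero_iff (n • Z)).mp hz'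
  rw [AddSubgroup.mem_addSubgroupOf] at hp
  obtain ⟨f, hf, hDf⟩ := Divisor.mem_principal.mp hp
  have hord : ∀ v, v.ord f = (n : ℤ) * (Z : Divisor L F) v := fun v => by
    rw [← hDf v]; simp
  obtain ⟨e, a, he, ha, hrel⟩ :=
    D.inertia_sq σ hσ n hn f hf fun v => ⟨_, hord v⟩
  set S := SemilinearAut.degZeroSMulHom σ
  rw [SemilinearAut.pic0_smul_mk, show Pic0.mk (S Z) - Pic0.mk Z = Pic0.mk (S Z - Z) from rfl,
    SemilinearAut.pic0_smul_mk]
  refine pic0_mk_eq_of_sub ?_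
  have hσf : σ • f ≠ 0 := (smul_ne_zero_iff_ne σ).mpr hf
  have hσσf : σ • σ • f ≠ 0 := (smul_ne_zero_iff_ne σ).mpr hσf
  refine isPrincipal_of_pow_relation (g := σ • σ • f * f * ((σ • f) ^ 2)⁻¹) hn0 he ha
    (fun v => ?_) ?_
  · rw [v.ord_mul (mul_ne_zero hσσf hf) (inv_ne_zero (pow_ne_zero _ hσf)),
      v.ord_mul hσσf hf, v.ord_inv, ← zpow_natCast, v.ord_zpow,
      NodalDatum.ord_smul_eq σ (NodalDatum.ord_smul_eq σ hord) v,
      NodalDatum.ord_smul_eq σ hord v, hord v]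
    simp [S, smul_sub]
    ring
  · rw [hrel, mul_assoc, mul_inv_cancel₀ (pow_ne_zero _ hσf), mul_one]

/-- The compatibility between the two descriptions of the same reductions. -/
structure Links (D : BadCurve π F C) (Δ : NodalDatum A π F E C) : Prop where
  q_eq : D.q = Δ.q
  Φ_eq : ∀ c : C, D.Φ c = Δ.φ c
  mem₁ : ∀ f : F, f ∈ D.V 0 ↔ f ∈ Δ.P₁.G
  mem₂ : ∀ f : F, f ∈ D.V 1 ↔ f ∈ Δ.P₂.G
  red₁ : ∀ (f : F) (h : f ∈ Δ.P₁.G), D.red 0 f = Δ.P₁.red ⟨f, h⟩
  red₂ : ∀ (f : F) (h : f ∈ Δ.P₂.G), D.red 1 f = Δ.P₂.red ⟨f, h⟩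

/-- **Frobenius on `q`-new torsion**: `(σ² - q²)(σ² - 1) = 0` for a Frobenius `σ`. -/
theorem BadCurve.frobenius_sq_relation [IsAlgClosed L] [IsAlgClosed k]
    {Δ : NodalDatum A π F E C} (hl : Links D Δ)
    {σ : SemilinearAut L F} (hσ : Δ.RedAction σ Δ.τ) (hu : σ • D.u = D.u) {n : ℕ}
    (hn : (n : k) ≠ 0) {z : Pic0 L F} (hz : n • z = 0)
    (hnew : Δ.IsPushTrivial z) :
    σ • σ • (σ • σ • z - z) = (Δ.q ^ 2) • (σ • σ • z - z) := by
  classical
  have hn0 : n ≠ 0 := fun h => hn (by rw [h, Nat.cast_zero])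
  have hsym : D.Sym σ (SemilinearAut.toRingAut Δ.τ) := by
    refine ⟨hu, fun i f hf => ?_, fun i f hf => ?_⟩
    · fin_cases i
      · exact (hl.mem₁ _).mpr (hσ.mem₁ ⟨f, (hl.mem₁ f).mp hf⟩)
      · exact (hl.mem₂ _).mpr (hσ.mem₂ ⟨f, (hl.mem₂ f).mp hf⟩)
    · fin_cases i
      · exact (hl.red₁ _ (hσ.mem₁ ⟨f, (hl.mem₁ f).mp hf⟩)).trans ((hσ.red₁ _).trans
          (congrArg (Δ.τ • ·) (hl.red₁ f _).symm))
      · exact (hl.red₂ _ (hσ.mem₂ ⟨f, (hl.mem₂ f).mp hf⟩)).trans ((hσ.red₂ _).trans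
          (congrArg (Δ.τ • ·) (hl.red₂ f _).symm))
  have hΦ : ∀ c : C, D.Φ (D.Φ (SemilinearAut.toRingAut Δ.τ (SemilinearAut.toRingAut Δ.τ c))) =
      c ^ (D.q * D.q) := by
    intro c
    rw [hl.Φ_eq, hl.Φ_eq, ← SemilinearAut.smul_def, ← SemilinearAut.smul_def, Δ.φ_smul,
      map_pow, Δ.φ_smul, ← pow_mul, hl.q_eq]
  obtain ⟨Z, g, r₁, r₂, hZ, hroot⟩ :=
    Δ.exists_frob_rootData (hσ.mul hσ) hn hz hnew
  rw [mul_smul] at hZ
  rw [← hZ]
  have hred : D.RedIsPow n g := by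
    intro i c hc hr
    have key : ∀ (P : ScalePair A π F C) (hg : g ∈ P.G) (r : C), r ≠ 0 →
        P.red ⟨g, hg⟩ = r ^ n → ∀ h : c • g ∈ P.G, P.red ⟨c • g, h⟩ ≠ 0 →
        ∃ (a : k) (h' : C), P.red ⟨c • g, h⟩ = a • h' ^ n := by
      intro P hg r hr0 hgr h hne
      have hg0 : P.red ⟨g, hg⟩ ≠ 0 := by rw [hgr]; exact pow_ne_zero _ hr0
      have hc' : c ∈ A := by
        by_contra hcA
        have hc0 : c ≠ 0 := fun h0 => hcA (h0 ▸ A.zero_mem)
        have hci : c⁻¹ ∈ A := (A.mem_or_inv_mem _).resolve_left hcA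
        have hπ0 : π ⟨_, hci⟩ = 0 :=
          D.residue_eq_zero_of_nonunit _ (TwoBranch.inv_mem_nonunits_of_notMem hcA)
        have : (⟨g, hg⟩ : P.G) = P.const ⟨_, hci⟩ * ⟨c • g, h⟩ := Subtype.ext (by
          push_cast
          rw [ScalePair.coe_const, ← Algebra.smul_def, inv_smul_smul₀ hc0])
        exact hg0 (by rw [this, map_mul, P.red_const, hπ0, map_zero, zero_mul])
      refine ⟨π ⟨c, hc'⟩, r, ?_⟩
      have : (⟨c • g, h⟩ : P.G) = P.const ⟨c, hc'⟩ * ⟨g, hg⟩ := Subtype.ext (by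
        push_cast
        rw [ScalePair.coe_const, ← Algebra.smul_def])
      rw [this, map_mul, P.red_const, hgr, Algebra.smul_def]
    fin_cases i
    · have h' := (hl.mem₁ _).mp hc
      simp only [Fin.zero_eta] at hr ⊢
      rw [hl.red₁ _ h'] at hr ⊢
      exact key Δ.P₁ hroot.mem₁ r₁ hroot.red_ne₁ hroot.red₁ h' hr
    · have h' := (hl.mem₂ _).mp hc
      simp only [Fin.mk_one] at hr ⊢
      rw [hl.red₂ _ h'] at hr ⊢
      exact key Δ.P₂ hroot.mem₂ r₂ hroot.red_ne₂ hroot.red₂ h' hr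
  obtain ⟨e, a, he, ha, hrel⟩ := D.frobenius_sq σ (SemilinearAut.toRingAut Δ.τ) hsym hΦ n hn g
    hroot.ne_zero (fun v => ⟨_, hroot.ord_eq v⟩) hred
  set S := SemilinearAut.degZeroSMulHom σ
  rw [SemilinearAut.pic0_smul_mk, SemilinearAut.pic0_smul_mk,
    show (Δ.q ^ 2) • Pic0.mk Z = Pic0.mk ((Δ.q ^ 2) • Z) from
      (map_nsmul (QuotientAddGroup.mk' _) _ Z).symm]
  refine pic0_mk_eq_of_sub ?_
  have hσg : σ • σ • g ≠ 0 := (smul_ne_zero_iff_ne σ).mpr ((smul_ne_zero_iff_ne σ).mpr hroot.ne_zero)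
  have hpow : g ^ (D.q * D.q) ≠ 0 := pow_ne_zero _ hroot.ne_zero
  refine isPrincipal_of_pow_relation (g := σ • σ • g * (g ^ (D.q * D.q))⁻¹) hn0 he ha
    (fun v => ?_) ?_
  · rw [v.ord_mul hσg (inv_ne_zero hpow), v.ord_inv, ← zpow_natCast, v.ord_zpow,
      NodalDatum.ord_smul_eq σ (NodalDatum.ord_smul_eq σ hroot.ord_eq) v, hroot.ord_eq v, hl.q_eq]
    simp [S]
    ring
  · rw [hrel, mul_assoc, mul_inv_cancel₀ hpow, mul_one]

end Fermat.Agent.BAD
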