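import Fermat.Agent.BAD.Normalize
import Mathlib.RingTheory.Norm.Basic

/-!
# The norm residue of `q`-new torsion classes

For a function which is a unit on both components, the norm along `α` reduces to
`r₁ * τ r₂`; hence for a class killed by both pushforwards `σ z - z` has root data when `σ`
is a square of Frobenius.
-/

set_option autoImplicit false

noncomputable section

open AlgebraicCurve

namespace Fermat.Agent.BAD

theorem linearIndependent_pow_of_not_pow {C : Type*} [Field C] {q : ℕ} (hq : q.Prime)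
    [CharP C q] {r : C} (hr : ∀ b : C, b ^ q ≠ r) {c : Fin q → C}
    (h : ∑ i, c i ^ q * r ^ (i : ℕ) = 0) (i : Fin q) : c i = 0 := by
  haveI : Fact q.Prime := ⟨hq⟩
  set K : Subfield C := (frobenius C q).fieldRange with hK
  have hrq : r ^ q ∈ K := ⟨r, rfl⟩
  have hirr : Irreducible (Polynomial.X ^ q - Polynomial.C (⟨r ^ q, hrq⟩ : K)) := by
    refine X_pow_sub_C_irreducible_of_prime hq fun b hb => ?_
    obtain ⟨b₀, hb₀⟩ := b.2
    have hb' : (b : C) ^ q = r ^ q := congrArg Subtype.val hb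
    have : (b : C) = r := frobenius_inj C q hb'
    exact hr b₀ (hb₀.trans this)
  have hroot : Polynomial.aeval r (Polynomial.X ^ q - Polynomial.C (⟨r ^ q, hrq⟩ : K)) = 0 := by
    rw [map_sub, map_pow, Polynomial.aeval_X, Polynomial.aeval_C]
    exact sub_self _
  have hdeg : (minpoly K r).natDegree = q := by
    rw [← minpoly.eq_of_irreducible_of_monic hirr hroot
      (Polynomial.monic_X_pow_sub_C _ hq.ne_zero), Polynomial.natDegree_X_pow_sub_C]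
  have hli := (linearIndependent_pow (K := K) r).comp (Fin.cast hdeg.symm) (Fin.cast_injective _)
  have := Fintype.linearIndependent_iff.mp hli (fun j => ⟨c j ^ q, c j, rfl⟩)
    (by simpa [Subfield.smul_def] using h) i
  exact pow_eq_zero_iff hq.ne_zero |>.mp (congrArg Subtype.val this)

namespace NodalDatum

variable {L k : Type} [Field L] [Field k] {A : ValuationSubring L} {π : A →+* k}
variable {F E C : Type} [Field F] [Field E] [Field C] [Algebra L F] [Algebra L E] [Algebra k C]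
variable (Δ : NodalDatum A π F E C)

/-- An element whose reduction is not a `q`-th power. -/
def gen : Δ.PE.G := Δ.jE

theorem gen_spec : ∀ b : C, b ^ Δ.q ≠ Δ.PE.red Δ.gen := Δ.J_not_pow

/-- Index type of the basis of `F` over `α E`. -/
abbrev Idx : Type := Unit ⊕ Fin Δ.q

/-- A basis of `F` over `α E` with split residues. -/
def bas : Δ.Idx → F
  | .inl _ => Δ.e
  | .inr i => Δ.e' * Δ.β ((Δ.gen ^ (i : ℕ) : Δ.PE.G) : E)

theorem bas_mem₁ (j : Δ.Idx) : Δ.bas j ∈ Δ.P₁.G := by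
  rcases j with u | i
  · exact Δ.e_mem₁
  · exact mul_mem Δ.e'_mem₁ (Δ.β_mem₁ _)

theorem bas_mem₂ (j : Δ.Idx) : Δ.bas j ∈ Δ.P₂.G := by
  rcases j with u | i
  · exact Δ.e_mem₂
  · exact mul_mem Δ.e'_mem₂ (Δ.β_mem₂ _)

theorem red_bas₁_inr (i : Fin Δ.q) : Δ.P₁.red ⟨Δ.bas (.inr i), Δ.bas_mem₁ _⟩ = 0 := by
  have : (⟨Δ.bas (.inr i), Δ.bas_mem₁ _⟩ : Δ.P₁.G) =
      ⟨Δ.e', Δ.e'_mem₁⟩ * Δ.β₁ (Δ.gen ^ (i : ℕ)) := rfl
  rw [this, map_mul, Δ.red_e'₁, zero_mul]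

theorem red_bas₂_inr (i : Fin Δ.q) : Δ.P₂.red ⟨Δ.bas (.inr i), Δ.bas_mem₂ _⟩ =
    Δ.P₂.red ⟨Δ.e', Δ.e'_mem₂⟩ * Δ.PE.red Δ.gen ^ (i : ℕ) := by
  have : (⟨Δ.bas (.inr i), Δ.bas_mem₂ _⟩ : Δ.P₂.G) =
      ⟨Δ.e', Δ.e'_mem₂⟩ * Δ.β₂ (Δ.gen ^ (i : ℕ)) := rfl
  rw [this, map_mul, red_β₂, map_pow]

/-- The residual equations of a combination of the basis. -/
theorem red_comb₁ (d : Δ.Idx → Δ.PE.G) :
    Δ.P₁.red (∑ j, Δ.α₁ (d j) * ⟨Δ.bas j, Δ.bas_mem₁ j⟩) =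
      Δ.PE.red (d (.inl ())) * Δ.P₁.red ⟨Δ.e, Δ.e_mem₁⟩ := by
  rw [map_sum, Fintype.sum_sum_type]
  simp only [map_mul, red_α₁, red_bas₁_inr, mul_zero, Finset.sum_const_zero, add_zero,
    Finset.univ_unique, Finset.sum_singleton]
  rfl

theorem red_comb₂ (d : Δ.Idx → Δ.PE.G) :
    Δ.P₂.red (∑ j, Δ.α₂ (d j) * ⟨Δ.bas j, Δ.bas_mem₂ j⟩) =
      Δ.P₂.red ⟨Δ.e', Δ.e'_mem₂⟩ *
        ∑ i, Δ.φ (Δ.PE.red (d (.inr i))) * Δ.PE.red Δ.gen ^ (i : ℕ) := by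
  rw [map_sum, Fintype.sum_sum_type]
  simp only [map_mul, red_α₂, red_bas₂_inr, Finset.univ_unique, Finset.sum_singleton,
    Finset.mul_sum]
  have : Δ.P₂.red ⟨Δ.bas (.inl default), Δ.bas_mem₂ _⟩ = 0 := Δ.red_e₂
  rw [this, mul_zero, zero_add]
  exact Finset.sum_congr rfl fun i _ => mul_left_comm _ _ _

theorem φ_pow_indep {c : Fin Δ.q → C}
    (h : ∑ i, Δ.φ (c i) * Δ.PE.red Δ.gen ^ (i : ℕ) = 0) (i : Fin Δ.q) : c i = 0 := by
  haveI := Δ.charP_C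
  have := linearIndependent_pow_of_not_pow Δ.hq Δ.gen_spec (c := fun i => Δ.τ⁻¹ • c i)
    (by simpa [φ_apply] using h) i
  exact (smul_eq_zero_iff_eq Δ.τ⁻¹).mp this

theorem red_eq_zero_of_comb {d : Δ.Idx → Δ.PE.G}
    (h₁ : Δ.P₁.red (∑ j, Δ.α₁ (d j) * ⟨Δ.bas j, Δ.bas_mem₁ j⟩) = 0)
    (h₂ : Δ.P₂.red (∑ j, Δ.α₂ (d j) * ⟨Δ.bas j, Δ.bas_mem₂ j⟩) = 0) (j : Δ.Idx) :
    Δ.PE.red (d j) = 0 := by
  rw [red_comb₁] at h₁
  rw [red_comb₂] at h₂
  rcases j with ⟨⟩ | i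
  · exact (mul_eq_zero.mp h₁).resolve_right Δ.red_e₁_ne_zero
  · exact Δ.φ_pow_indep ((mul_eq_zero.mp h₂).resolve_left Δ.red_e'₂_ne_zero) i

theorem exists_scale {c : Δ.Idx → E} (hc : ∃ j, c j ≠ 0) :
    ∃ (a : L) (d : Δ.Idx → Δ.PE.G) (j₀ : Δ.Idx),
      a ≠ 0 ∧ Δ.PE.red (d j₀) ≠ 0 ∧ ∀ j, c j = a • (d j : E) := by
  classical
  have h : ∀ j, ∃ (a : L) (w : Δ.PE.G), Δ.PE.red w ≠ 0 ∧ c j = a • (w : E) := fun j => by
    rcases eq_or_ne (c j) 0 with h0 | h0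
    · exact ⟨0, 1, by simp, by rw [h0, zero_smul]⟩
    · exact Δ.PE.exists_eq_smul _ h0
  choose a w hw hcw using h
  obtain ⟨j₁, hj₁⟩ := hc
  haveI : Nonempty Δ.Idx := ⟨j₁⟩
  obtain ⟨j₀, hmax⟩ := Finite.exists_max fun j => A.valuation (a j)
  have ha1 : a j₁ ≠ 0 := fun h0 => hj₁ (by rw [hcw j₁, h0, zero_smul])
  have ha0 : a j₀ ≠ 0 := fun h0 => ha1 (by
    have := hmax j₁
    rw [h0, map_zero, le_zero_iff, map_eq_zero] at this
    exact this)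
  have hdiv : ∀ j, a j / a j₀ ∈ A := fun j => (A.valuation_le_one_iff _).mp (by
    rw [map_div₀]; exact div_le_one_of_le₀ (hmax j) zero_le)
  refine ⟨a j₀, fun j => Δ.PE.const ⟨_, hdiv j⟩ * w j, j₀, ha0, ?_, fun j => ?_⟩
  · rw [map_mul, Δ.PE.red_const]
    have : (⟨_, hdiv j₀⟩ : A) = 1 := Subtype.ext (div_self ha0)
    rw [this, map_one, map_one, one_mul]
    exact hw j₀
  · push_cast
    rw [ScalePair.coe_const, ← Algebra.smul_def, smul_smul, mul_div_cancel₀ _ ha0]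
    exact hcw j

theorem coeff_mem_of_comb {c : Δ.Idx → E} {u : F} (hu₁ : u ∈ Δ.P₁.G) (hu₂ : u ∈ Δ.P₂.G)
    (h : ∑ j, Δ.α (c j) * Δ.bas j = u) (j : Δ.Idx) : c j ∈ Δ.PE.G := by
  by_cases hc : ∃ i, c i ≠ 0
  swap
  · push Not at hc
    rw [hc j]
    exact zero_mem _
  obtain ⟨a, d, j₀, ha, hd, hcd⟩ := Δ.exists_scale hc
  by_cases haA : a ∈ A
  · rw [hcd j, Algebra.smul_def]
    exact mul_mem (Δ.PE.algebraMap_mem ⟨a, haA⟩) (d j).2
  exfalso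
  have hai : a⁻¹ ∈ A := (A.mem_or_inv_mem _).resolve_left haA
  have hπ0 : π ⟨_, hai⟩ = 0 := by
    by_contra hne
    obtain ⟨y, hy⟩ := isUnit_iff_exists_inv.mp ((Δ.map_ne_zero_iff_isUnit _).mp hne)
    have hy' : a⁻¹ * (y : L) = 1 := congrArg Subtype.val hy
    exact haA ((inv_mul_eq_one₀ ha).mp hy' ▸ y.2)
  have hsum : ∑ i, Δ.α (d i : E) * Δ.bas i = algebraMap L F a⁻¹ * u := by
    rw [← h, Finset.mul_sum]
    refine Finset.sum_congr rfl fun i _ => ?_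
    rw [hcd i, map_smul, Algebra.smul_def, map_inv₀, ← mul_assoc, ← mul_assoc,
      inv_mul_cancel₀ ((map_ne_zero _).mpr ha), one_mul]
  refine hd (Δ.red_eq_zero_of_comb ?_ ?_ j₀)
  · have : ∑ i, Δ.α₁ (d i) * ⟨Δ.bas i, Δ.bas_mem₁ i⟩ = Δ.P₁.const ⟨_, hai⟩ * ⟨u, hu₁⟩ :=
      Subtype.ext (by push_cast; exact hsum)
    rw [this, map_mul, Δ.P₁.red_const, hπ0, map_zero, zero_mul]
  · have : ∑ i, Δ.α₂ (d i) * ⟨Δ.bas i, Δ.bas_mem₂ i⟩ = Δ.P₂.const ⟨_, hai⟩ * ⟨u, hu₂⟩ :=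
      Subtype.ext (by push_cast; exact hsum)
    rw [this, map_mul, Δ.P₂.red_const, hπ0, map_zero, zero_mul]

theorem eq_zero_of_comb {c : Δ.Idx → E} (h : ∑ j, Δ.α (c j) * Δ.bas j = 0) (j : Δ.Idx) :
    c j = 0 := by
  by_contra hj
  obtain ⟨a, d, j₀, ha, hd, hcd⟩ := Δ.exists_scale ⟨j, hj⟩
  have hsum : ∑ i, Δ.α (d i : E) * Δ.bas i = 0 := by
    have h' : algebraMap L F a * ∑ i, Δ.α (d i : E) * Δ.bas i = 0 := by
      rw [Finset.mul_sum, ← h]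
      refine Finset.sum_congr rfl fun i _ => ?_
      rw [hcd i, map_smul, Algebra.smul_def, mul_assoc]
    exact (mul_eq_zero.mp h').resolve_left ((map_ne_zero _).mpr ha)
  refine hd (Δ.red_eq_zero_of_comb ?_ ?_ j₀)
  · have : ∑ i, Δ.α₁ (d i) * ⟨Δ.bas i, Δ.bas_mem₁ i⟩ = 0 :=
      Subtype.ext (by push_cast; exact hsum)
    rw [this, map_zero]
  · have : ∑ i, Δ.α₂ (d i) * ⟨Δ.bas i, Δ.bas_mem₂ i⟩ = 0 :=
      Subtype.ext (by push_cast; exact hsum)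
    rw [this, map_zero]

/-- **Norm residue**: the norm along `α` of a unit on both components. -/
theorem red_norm {f : F} (h₁ : f ∈ Δ.P₁.G) (h₂ : f ∈ Δ.P₂.G) :
    letI := algebraAlong Δ.α
    ∃ hN : Algebra.norm E f ∈ Δ.PE.G, Δ.PE.red ⟨Algebra.norm E f, hN⟩ =
      Δ.P₁.red ⟨f, h₁⟩ * (Δ.τ • Δ.P₂.red ⟨f, h₂⟩) := by
  classical
  haveI := Δ.charP_C
  letI := algebraAlong Δ.α
  have hsmul : ∀ (c : E) (x : F), c • x = Δ.α c * x := fun c x => Algebra.smul_def c x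
  have hli : LinearIndependent E Δ.bas := by
    rw [Fintype.linearIndependent_iff]
    exact fun c hc => Δ.eq_zero_of_comb (by simpa only [hsmul] using hc)
  have hcard : Fintype.card Δ.Idx = Module.finrank E F := by
    rw [Fintype.card_sum, Fintype.card_unit, Fintype.card_fin, add_comm]
    exact Δ.finrankα.symm
  haveI : Nonempty Δ.Idx := ⟨.inl ()⟩
  set b := basisOfLinearIndependentOfCardEqFinrank hli hcard with hb
  have hbv : ∀ j, b j = Δ.bas j := fun j => by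
    rw [hb, coe_basisOfLinearIndependentOfCardEqFinrank]
  set M := Algebra.leftMulMatrix b f with hM
  have hcol : ∀ j, ∑ i, Δ.α (M i j) * Δ.bas i = f * Δ.bas j := by
    intro j
    have := b.sum_repr (f * b j)
    simp only [hbv, hsmul] at this
    simpa only [hM, Algebra.leftMulMatrix_eq_repr_mul, hbv] using this
  have hmem : ∀ i j, M i j ∈ Δ.PE.G := fun i j =>
    Δ.coeff_mem_of_comb (mul_mem h₁ (Δ.bas_mem₁ j)) (mul_mem h₂ (Δ.bas_mem₂ j)) (hcol j) i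
  let M' : Matrix Δ.Idx Δ.Idx Δ.PE.G := Matrix.of fun i j => ⟨M i j, hmem i j⟩
  have hdet : Algebra.norm E f = (M'.det : E) := by
    rw [Algebra.norm_eq_matrix_det b, ← hM]
    exact ((RingHom.map_det Δ.PE.G.subtype M').trans rfl).symm
  refine ⟨hdet ▸ M'.det.2, ?_⟩
  have hsub : (⟨Algebra.norm E f, hdet ▸ M'.det.2⟩ : Δ.PE.G) = M'.det := Subtype.ext hdet
  rw [hsub, RingHom.map_det]
  set r₁ := Δ.P₁.red ⟨f, h₁⟩
  set r₂ := Δ.P₂.red ⟨f, h₂⟩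
  set E₂ := Δ.P₂.red ⟨Δ.e', Δ.e'_mem₂⟩
  set g := Δ.PE.red Δ.gen
  set N : Matrix Δ.Idx Δ.Idx C := Δ.PE.red.mapMatrix M' with hN
  have hNij : ∀ i j, N i j = Δ.PE.red (M' i j) := fun i j => rfl
  have e₁ : ∀ j, N (.inl ()) j * Δ.P₁.red ⟨Δ.e, Δ.e_mem₁⟩ =
      r₁ * Δ.P₁.red ⟨Δ.bas j, Δ.bas_mem₁ j⟩ := by
    intro j
    rw [hNij, ← Δ.red_comb₁ (fun i => M' i j), ← map_mul]
    congr 1
    exact Subtype.ext (by push_cast; exact hcol j)
  have e₂ : ∀ j, E₂ * ∑ i, Δ.φ (N (.inr i) j) * g ^ (i : ℕ) =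
      r₂ * Δ.P₂.red ⟨Δ.bas j, Δ.bas_mem₂ j⟩ := by
    intro j
    rw [← map_mul]
    simp only [hNij, E₂, g]
    rw [← Δ.red_comb₂ (fun i => M' i j)]
    congr 1
    exact Subtype.ext (by push_cast; exact hcol j)
  have h00 : N (.inl ()) (.inl ()) = r₁ :=
    mul_right_cancel₀ Δ.red_e₁_ne_zero (e₁ (.inl ()))
  have h0j : N.toBlocks₁₂ = 0 := by
    ext u i
    have := e₁ (.inr i)
    rw [red_bas₁_inr, mul_zero, mul_eq_zero] at this
    exact this.resolve_right Δ.red_e₁_ne_zero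
  set B := N.toBlocks₂₂ with hB
  have hBrel : ∀ l : Fin Δ.q, ∑ i, Δ.φ (B i l) * g ^ (i : ℕ) = r₂ * g ^ (l : ℕ) := by
    intro l
    refine mul_left_cancel₀ (a := E₂) Δ.red_e'₂_ne_zero ?_
    rw [mul_left_comm, ← Δ.red_bas₂_inr]
    exact e₂ (.inr l)
  have hpow : ∀ (m : ℕ) (l : Fin Δ.q),
      ∑ i, Δ.φ ((B ^ m) i l) * g ^ (i : ℕ) = r₂ ^ m * g ^ (l : ℕ) := by
    intro m
    induction m with
    | zero =>
      intro l
      simp [Matrix.one_apply, apply_ite Δ.φ, ite_mul, Finset.sum_ite_eq']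
    | succ m ih =>
      intro l
      calc ∑ i, Δ.φ ((B ^ (m + 1)) i l) * g ^ (i : ℕ)
          = ∑ i, ∑ o, Δ.φ ((B ^ m) i o) * g ^ (i : ℕ) * Δ.φ (B o l) := by
            refine Finset.sum_congr rfl fun i _ => ?_
            rw [pow_succ, Matrix.mul_apply, map_sum, Finset.sum_mul]
            exact Finset.sum_congr rfl fun o _ => by rw [map_mul]; ring
        _ = ∑ o : Fin Δ.q, (r₂ ^ m * g ^ (o : ℕ)) * Δ.φ (B o l) := by
            rw [Finset.sum_comm]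
            exact Finset.sum_congr rfl fun o _ => by rw [← ih o, Finset.sum_mul]
        _ = r₂ ^ (m + 1) * g ^ (l : ℕ) := by
            rw [pow_succ, mul_assoc (r₂ ^ m), ← hBrel l, Finset.mul_sum]
            exact Finset.sum_congr rfl fun o _ => by ring
  have hBq : B ^ Δ.q = (Δ.τ • r₂) • (1 : Matrix (Fin Δ.q) (Fin Δ.q) C) := by
    ext i l
    refine sub_eq_zero.mp (Δ.φ_pow_indep (c := fun i =>
      (B ^ Δ.q) i l - ((Δ.τ • r₂) • (1 : Matrix (Fin Δ.q) (Fin Δ.q) C)) i l) ?_ i)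
    simp only [map_sub, sub_mul, Finset.sum_sub_distrib]
    refine sub_eq_zero.mpr ?_
    refine (hpow Δ.q l).trans ?_
    have : ∑ o, Δ.φ (((Δ.τ • r₂) • (1 : Matrix (Fin Δ.q) (Fin Δ.q) C)) o l) * g ^ (o : ℕ) =
        r₂ ^ Δ.q * g ^ (l : ℕ) := by
      simp only [Matrix.smul_apply, Matrix.one_apply, smul_eq_mul, mul_ite, mul_one, mul_zero,
        apply_ite Δ.φ, map_zero, φ_smul, ite_mul, zero_mul, Finset.sum_ite_eq',
        Finset.mem_univ, if_true]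
    exact this.symm
  have hBdet : B.det = Δ.τ • r₂ := by
    refine frobenius_inj C Δ.q ?_
    show B.det ^ Δ.q = (Δ.τ • r₂) ^ Δ.q
    rw [← Matrix.det_pow, hBq, Matrix.det_smul, Matrix.det_one, mul_one, Fintype.card_fin]
  rw [← Matrix.fromBlocks_toBlocks N, h0j, Matrix.det_fromBlocks_zero₁₂, ← hB, hBdet,
    Matrix.det_unique]
  congr 1

/-- The residue relation of a class killed by the pushforward along `α`. -/
theorem push_residue {n : ℕ} (hn : 0 < n) {D : Divisor L F} {f : F} (h₁ : f ∈ Δ.P₁.G)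
    (h₂ : f ∈ Δ.P₂.G) (hf : f ≠ 0) (hord : ∀ v, v.ord f = (n : ℤ) * D v)
    (hr₁ : Δ.P₁.red ⟨f, h₁⟩ ≠ 0) (hr₂ : Δ.P₂.red ⟨f, h₂⟩ ≠ 0)
    (hpush : Divisor.IsPrincipal (Divisor.pushforwardAlong Δ.α Δ.integralα D)) :
    ∃ y : C, y ≠ 0 ∧ Δ.P₁.red ⟨f, h₁⟩ * (Δ.τ • Δ.P₂.red ⟨f, h₂⟩) = y ^ n := by
  letI := algebraAlong Δ.α
  haveI := isScalarTower_along Δ.α
  haveI := isIntegral_along Δ.α Δ.integralα
  haveI : Module.Finite E F := Δ.finiteα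
  haveI := Δ.algClosedResidue
  obtain ⟨hN, hred⟩ := Δ.red_norm h₁ h₂
  obtain ⟨g, hg, hgD⟩ := hpush
  obtain ⟨Df, hDf, -⟩ := Δ.principalF.exists_divisor f hf
  have hDfn : Df = (n : ℤ) • D := Finsupp.ext fun v => by rw [hDf v, hord v]; simp
  have hnorm0 : Algebra.norm E f ≠ 0 := Algebra.norm_ne_zero_iff.mpr hf
  have hordN : ∀ v : Place L E, v.ord (Algebra.norm E f) = (n : ℤ) * v.ord g := by
    intro v
    have h := Δ.normα f hf Df hDf v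
    rw [← h, hDfn, map_zsmul, Finsupp.smul_apply, smul_eq_mul, ← hgD v]
    rfl
  have hgn : g ^ n ≠ 0 := pow_ne_zero _ hg
  obtain ⟨c, hceq⟩ := Δ.constE _
    (mul_ne_zero hnorm0 (inv_ne_zero hgn)) fun v => by
      rw [v.ord_mul hnorm0 (inv_ne_zero hgn), v.ord_inv, ← zpow_natCast, v.ord_zpow, hordN v]
      ring
  obtain ⟨a, w, hw, hgw⟩ := Δ.PE.exists_eq_smul g hg
  have hNeq : Algebra.norm E f = algebraMap L E (c * a ^ n) * (w : E) ^ n := by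
    have : Algebra.norm E f = algebraMap L E c * g ^ n := by
      rw [← hceq, mul_assoc, inv_mul_cancel₀ hgn, mul_one]
    rw [this, hgw, smul_pow, Algebra.smul_def, map_mul, map_pow, mul_assoc]
  have hred0 : Δ.PE.red ⟨_, hN⟩ ≠ 0 := by
    rw [hred]
    exact mul_ne_zero hr₁ ((smul_ne_zero_iff_ne _).mpr hr₂)
  set b := c * a ^ n with hb
  have hwn : (w : E) ^ n ≠ 0 := pow_ne_zero _ (pair_ne_zero Δ.PE hw)
  have hbA : b ∈ A := by
    by_contra hbA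
    have hbi : b⁻¹ ∈ A := (A.mem_or_inv_mem _).resolve_left hbA
    have hb0 : b ≠ 0 := fun h => hbA (h ▸ A.zero_mem)
    have hπ0 : π ⟨_, hbi⟩ = 0 := by
      by_contra hne
      obtain ⟨y, hy⟩ := isUnit_iff_exists_inv.mp ((Δ.map_ne_zero_iff_isUnit _).mp hne)
      have hy' : b⁻¹ * (y : L) = 1 := congrArg Subtype.val hy
      exact hbA ((inv_mul_eq_one₀ hb0).mp hy' ▸ y.2)
    have : w ^ n = Δ.PE.const ⟨_, hbi⟩ * ⟨_, hN⟩ := Subtype.ext (by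
      push_cast
      rw [ScalePair.coe_const, hNeq, ← mul_assoc, ← map_mul, inv_mul_cancel₀ hb0, map_one,
        one_mul])
    have := congrArg Δ.PE.red this
    rw [map_pow, map_mul, Δ.PE.red_const, hπ0, map_zero, zero_mul] at this
    exact pow_ne_zero _ hw this
  have hNG : (⟨_, hN⟩ : Δ.PE.G) = Δ.PE.const ⟨b, hbA⟩ * w ^ n := Subtype.ext (by
    push_cast
    rw [ScalePair.coe_const]
    exact hNeq)
  obtain ⟨κ, hκ⟩ := IsAlgClosed.exists_pow_nat_eq (π ⟨b, hbA⟩) hn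
  refine ⟨algebraMap k C κ * Δ.PE.red w, ?_, ?_⟩
  · intro h0
    refine hred0 ?_
    rw [hNG, map_mul, Δ.PE.red_const, map_pow, ← hκ, map_pow, ← mul_pow, h0, zero_pow hn.ne']
  · rw [← hred, hNG, map_mul, Δ.PE.red_const, map_pow, ← hκ, map_pow, mul_pow]

/-- For a square of Frobenius and a `q`-new class, `σ z - z` has root data. -/
theorem exists_frob_rootData {σ : SemilinearAut L F} (hσ : Δ.RedAction σ (Δ.τ * Δ.τ)) {n : ℕ}
    (hn : (n : k) ≠ 0) {z : Pic0 L F} (hz : n • z = 0) (hnew : Δ.IsPushTrivial z) :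
    ∃ (D : Divisor.degZero (K := L) (F := F)) (f : F) (r₁ r₂ : C),
      Pic0.mk D = σ • z - z ∧ Δ.IsRootData n (D : Divisor L F) f r₁ r₂ := by
  have hn0 : 0 < n := Nat.pos_of_ne_zero fun h => hn (by rw [h, Nat.cast_zero])
  obtain ⟨D₀, rfl, hα, hβ⟩ := hnew
  obtain ⟨D, f, h₁, h₂, hD, hdiff, hf, hord, hr₁, hr₂⟩ := Δ.exists_normalized_rep hn0 D₀ hz
  have hpush : ∀ {φ' : E →ₐ[L] F} (hi : φ'.toRingHom.IsIntegral) (hfin : FiniteAlong L φ'),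
      NormFormulaAlong L φ' hfin →
      Divisor.IsPrincipal (Divisor.pushforwardAlong φ' hi (D₀ : Divisor L F)) →
      Divisor.IsPrincipal (Divisor.pushforwardAlong φ' hi (D : Divisor L F)) := by
    intro φ' hi hfin hnorm h
    have h2 := Divisor.isPrincipal_pushforwardAlong φ' hi hfin hnorm hdiff
    rw [map_sub] at h2
    have := add_mem (Divisor.mem_principal.mpr h2) (Divisor.mem_principal.mpr h)
    rw [sub_add_cancel] at this
    exact Divisor.mem_principal.mp this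
  obtain ⟨y, hy, hyr⟩ := Δ.push_residue hn0 h₁ h₂ hf hord hr₁ hr₂
    (hpush Δ.integralα Δ.finiteα Δ.normα hα)
  obtain ⟨y', hy', hyr'⟩ : ∃ y : C, y ≠ 0 ∧
      Δ.P₂.red ⟨f, h₂⟩ * (Δ.τ • Δ.P₁.red ⟨f, h₁⟩) = y ^ n :=
    Δ.swap.push_residue hn0 h₂ h₁ hf hord hr₂ hr₁ (hpush Δ.integralβ Δ.finiteβ Δ.normβ hβ)
  obtain ⟨D', g, g₁, g₂, hD', hg, hgord, hg₁, hg₂⟩ :=
    Δ.exists_quotient_data hσ h₁ h₂ hf hord hr₁ hr₂
  set a := Δ.P₁.red ⟨f, h₁⟩
  set b := Δ.P₂.red ⟨f, h₂⟩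
  have key : ∀ {a b y y' : C}, a ≠ 0 → b ≠ 0 → a * (Δ.τ • b) = y ^ n → b * (Δ.τ • a) = y' ^ n →
      ((Δ.τ * Δ.τ) • a) / a = ((Δ.τ • y') / y) ^ n := by
    intro a b y y' ha hb e e'
    have hτb : Δ.τ • b ≠ 0 := (smul_ne_zero_iff_ne _).mpr hb
    rw [div_pow, ← e, ← smul_pow', ← e', smul_mul', mul_smul]
    field_simp
  refine ⟨D', g, (Δ.τ • y') / y, (Δ.τ • y) / y', ?_,
    hg, hgord, g₁, g₂, div_ne_zero ((smul_ne_zero_iff_ne _).mpr hy') hy,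
    div_ne_zero ((smul_ne_zero_iff_ne _).mpr hy) hy', ?_, ?_⟩
  · rw [hD', hD]
  · rw [hg₁]; exact key hr₁ hr₂ hyr hyr'
  · rw [hg₂]; exact key hr₂ hr₁ hyr' hyr

end NodalDatum

end Fermat.Agent.BAD
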