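import Fermat.Agent.BAD.RootData

/-!
# Normalising the function of a torsion class on both components
-/

set_option autoImplicit false

noncomputable section

open AlgebraicCurve

namespace Fermat.Agent.BAD

variable {L k : Type} [Field L] [Field k] {A : ValuationSubring L} {π : A →+* k}

section Pair

variable {F C : Type} [Field F] [Field C] [Algebra L F] [Algebra k C]
variable (P : ScalePair A π F C)

theorem pair_ne_zero {x : P.G} (hx : P.red x ≠ 0) : (x : F) ≠ 0 := fun h =>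
  hx (by rw [show x = 0 from Subtype.ext h, map_zero])

theorem pair_red_inv {x : P.G} (hx : P.red x ≠ 0) :
    P.red ⟨(x : F)⁻¹, P.inv_mem x hx⟩ = (P.red x)⁻¹ := by
  refine eq_inv_of_mul_eq_one_left ?_
  rw [← map_mul]
  have : (⟨(x : F)⁻¹, P.inv_mem x hx⟩ : P.G) * x = 1 :=
    Subtype.ext (inv_mul_cancel₀ (pair_ne_zero P hx))
  rw [this, map_one]

end Pair

namespace NodalDatum

variable {F E C : Type} [Field F] [Field E] [Field C] [Algebra L F] [Algebra L E] [Algebra k C]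
variable (Δ : NodalDatum A π F E C)

theorem exists_ratio_of_small {b : A} (hb : π b = 0) (hb0 : (b : L) ≠ 0) :
    ∃ (u : Δ.P₁.G) (w : Δ.P₂.G), Δ.P₁.red u ≠ 0 ∧ Δ.P₂.red w ≠ 0 ∧
      (u : F) = (b : L) • (w : F) := by
  have he0 : Δ.e ≠ 0 := pair_ne_zero Δ.P₁ Δ.red_e₁_ne_zero
  obtain ⟨c, w₀, hw₀, hew⟩ := Δ.P₂.exists_eq_smul Δ.e he0
  have hc0 : c ≠ 0 := fun h => he0 (by rw [hew, h, zero_smul])
  have hc : c ∈ A := by
    by_contra hc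
    have hci : c⁻¹ ∈ A := (A.mem_or_inv_mem _).resolve_left hc
    have : w₀ = Δ.P₂.const ⟨_, hci⟩ * ⟨Δ.e, Δ.e_mem₂⟩ := Subtype.ext (by
      push_cast
      rw [ScalePair.coe_const, ← Algebra.smul_def, hew, inv_smul_smul₀ hc0])
    exact hw₀ (by rw [this, map_mul, Δ.red_e₂, mul_zero])
  have hπc : π ⟨c, hc⟩ = 0 := by
    by_contra hne
    have : (⟨Δ.e, Δ.e_mem₂⟩ : Δ.P₂.G) = Δ.P₂.const ⟨c, hc⟩ * w₀ := Subtype.ext (by
      push_cast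
      rw [ScalePair.coe_const, ← Algebra.smul_def, hew])
    have h2 := Δ.red_e₂
    rw [this, map_mul, Δ.P₂.red_const] at h2
    rcases mul_eq_zero.mp h2 with h | h
    · exact hne ((algebraMap k C).injective (h.trans (map_zero _).symm))
    · exact hw₀ h
  obtain ⟨N, d, hd⟩ := Δ.hrank ⟨c, hc⟩ b hπc hb0
  refine ⟨(⟨Δ.e, Δ.e_mem₁⟩ : Δ.P₁.G) ^ (N + 1) + Δ.P₁.const b * ⟨Δ.e', Δ.e'_mem₁⟩,
    Δ.P₂.const (⟨c, hc⟩ * d) * w₀ ^ (N + 1) + ⟨Δ.e', Δ.e'_mem₂⟩, ?_, ?_, ?_⟩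
  · rw [map_add, map_mul, Δ.red_e'₁, mul_zero, add_zero, map_pow]
    exact pow_ne_zero _ Δ.red_e₁_ne_zero
  · rw [map_add, map_mul, Δ.P₂.red_const, map_mul π, hπc, zero_mul, map_zero, zero_mul, zero_add]
    exact Δ.red_e'₂_ne_zero
  · have hd' : c ^ N = (b : L) * (d : L) := congrArg Subtype.val hd
    have hd'' := congrArg (algebraMap L F) hd'
    rw [map_pow, map_mul] at hd''
    simp only [ScalePair.coe_const, MulMemClass.coe_mul, AddMemClass.coe_add,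
      SubmonoidClass.coe_pow, Algebra.smul_def, map_mul, hew]
    linear_combination (algebraMap L F c * (w₀ : F) ^ (N + 1)) * hd''

/-- Units of the first component with arbitrary size on the second. -/
theorem exists_ratio {b : L} (hb0 : b ≠ 0) :
    ∃ (u : Δ.P₁.G) (w : Δ.P₂.G), Δ.P₁.red u ≠ 0 ∧ Δ.P₂.red w ≠ 0 ∧
      (u : F) = b • (w : F) := by
  by_cases hb : b ∈ A
  · by_cases hπb : π ⟨b, hb⟩ = 0
    · exact Δ.exists_ratio_of_small hπb hb0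
    · obtain ⟨y, hy⟩ := isUnit_iff_exists_inv.mp ((Δ.map_ne_zero_iff_isUnit _).mp hπb)
      have hy' : b * (y : L) = 1 := congrArg Subtype.val hy
      refine ⟨1, Δ.P₂.const y, by simp, ?_, ?_⟩
      · rw [Δ.P₂.red_const]
        refine (map_ne_zero _).mpr fun h => ?_
        have := congrArg π hy
        rw [map_mul, h, mul_zero, map_one] at this
        exact zero_ne_one this
      · simp only [OneMemClass.coe_one, ScalePair.coe_const, Algebra.smul_def,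
          ← map_mul, hy', map_one]
  · have hbi : b⁻¹ ∈ A := (A.mem_or_inv_mem _).resolve_left hb
    have hπ0 : π ⟨_, hbi⟩ = 0 := by
      by_contra hne
      obtain ⟨y, hy⟩ := isUnit_iff_exists_inv.mp ((Δ.map_ne_zero_iff_isUnit _).mp hne)
      have hy' : b⁻¹ * (y : L) = 1 := congrArg Subtype.val hy
      exact hb ((inv_mul_eq_one₀ hb0).mp hy' ▸ y.2)
    obtain ⟨u, w, hu, hw, huw⟩ := Δ.exists_ratio_of_small hπ0 (inv_ne_zero hb0)
    refine ⟨⟨_, Δ.P₁.inv_mem u hu⟩, ⟨_, Δ.P₂.inv_mem w hw⟩, ?_, ?_, ?_⟩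
    · rw [pair_red_inv Δ.P₁ hu]; exact inv_ne_zero hu
    · rw [pair_red_inv Δ.P₂ hw]; exact inv_ne_zero hw
    · show (u : F)⁻¹ = b • (w : F)⁻¹
      rw [huw, Algebra.smul_def, Algebra.smul_def, map_inv₀, mul_inv, inv_inv]

/-- Multiplying by constants and `n`-th powers makes any function a unit on both components. -/
theorem exists_adjust {n : ℕ} (hn : 0 < n) {f : F} (hf : f ≠ 0) :
    ∃ (c : L) (u : F) (f₁ : Δ.P₁.G) (f₂ : Δ.P₂.G), c ≠ 0 ∧ u ≠ 0 ∧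
      (f₁ : F) = c • (f * u ^ n) ∧ (f₂ : F) = c • (f * u ^ n) ∧
      Δ.P₁.red f₁ ≠ 0 ∧ Δ.P₂.red f₂ ≠ 0 := by
  obtain ⟨c₁, w₁, hw₁, hf₁⟩ := Δ.P₁.exists_eq_smul f hf
  obtain ⟨c₂, w₂, hw₂, hf₂⟩ := Δ.P₂.exists_eq_smul f hf
  have hc₁ : c₁ ≠ 0 := fun h => hf (by rw [hf₁, h, zero_smul])
  have hc₂ : c₂ ≠ 0 := fun h => hf (by rw [hf₂, h, zero_smul])
  haveI := Δ.algClosed
  obtain ⟨b, hb⟩ := IsAlgClosed.exists_pow_nat_eq (c₁ / c₂) hn
  have hb0 : b ≠ 0 := by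
    rintro rfl
    rw [zero_pow hn.ne'] at hb
    exact div_ne_zero hc₁ hc₂ hb.symm
  obtain ⟨u, w, hu, hw, huw⟩ := Δ.exists_ratio hb0
  refine ⟨c₁⁻¹, u, w₁ * u ^ n, w₂ * w ^ n, inv_ne_zero hc₁, pair_ne_zero _ hu, ?_, ?_, ?_, ?_⟩
  · push_cast
    rw [hf₁, smul_mul_assoc, inv_smul_smul₀ hc₁]
  · push_cast
    rw [hf₂, huw, smul_pow, smul_mul_assoc, mul_smul_comm, smul_smul, smul_smul]
    have : c₁⁻¹ * c₂ * b ^ n = 1 := by rw [hb]; field_simp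
    rw [this, one_smul]
  · rw [map_mul, map_pow]; exact mul_ne_zero hw₁ (pow_ne_zero _ hu)
  · rw [map_mul, map_pow]; exact mul_ne_zero hw₂ (pow_ne_zero _ hw)

/-- A torsion class has a representative whose function is a unit on both components. -/
theorem exists_normalized_rep {n : ℕ} (hn : 0 < n) (D : Divisor.degZero (K := L) (F := F))
    (hD : n • Pic0.mk D = 0) :
    ∃ (D' : Divisor.degZero (K := L) (F := F)) (f : F) (h₁ : f ∈ Δ.P₁.G) (h₂ : f ∈ Δ.P₂.G),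
      Pic0.mk D' = Pic0.mk D ∧ Divisor.IsPrincipal ((D' : Divisor L F) - (D : Divisor L F)) ∧
      f ≠ 0 ∧ (∀ v, v.ord f = (n : ℤ) * (D' : Divisor L F) v) ∧
      Δ.P₁.red ⟨f, h₁⟩ ≠ 0 ∧ Δ.P₂.red ⟨f, h₂⟩ ≠ 0 := by
  have hz' : Pic0.mk (n • D) = 0 := by
    show QuotientAddGroup.mk' _ (n • D) = 0
    rw [map_nsmul]
    exact hD
  have hp := (QuotientAddGroup.eq_zero_iff (n • D)).mp hz'
  rw [AddSubgroup.mem_addSubgroupOf] at hp
  obtain ⟨f₀, hf₀, hDf⟩ := Divisor.mem_principal.mp hp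
  obtain ⟨c, u, f₁, f₂, hc, hu, hf₁, hf₂, hr₁, hr₂⟩ := Δ.exists_adjust hn hf₀
  obtain ⟨U, hU, hUdeg⟩ := Δ.principalF.exists_divisor u hu
  set D' : Divisor.degZero (K := L) (F := F) :=
    ⟨(D : Divisor L F) + U, add_mem D.2 (Divisor.mem_degZero.mpr hUdeg)⟩ with hD'
  have hUp : Divisor.IsPrincipal U := ⟨u, hu, hU⟩
  have hf : c • (f₀ * u ^ n) ≠ 0 := smul_ne_zero hc (mul_ne_zero hf₀ (pow_ne_zero _ hu))
  refine ⟨D', c • (f₀ * u ^ n), hf₁ ▸ f₁.2, hf₂ ▸ f₂.2, ?_, ?_, hf, ?_, ?_, ?_⟩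
  · refine (QuotientAddGroup.eq_iff_sub_mem).mpr ?_
    rw [AddSubgroup.mem_addSubgroupOf]
    simpa [hD'] using Divisor.mem_principal.mpr hUp
  · simpa [hD'] using hUp
  · intro v
    have h1 := hDf v
    rw [AddSubgroupClass.coe_nsmul, Finsupp.smul_apply, nsmul_eq_mul] at h1
    have hc' : algebraMap L F c ≠ 0 := (map_ne_zero _).mpr hc
    have hcord : v.ord (algebraMap L F c) = 0 := ord_const v c
    rw [Algebra.smul_def, v.ord_mul hc' (mul_ne_zero hf₀ (pow_ne_zero _ hu)), hcord,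
      v.ord_mul hf₀ (pow_ne_zero _ hu), ← zpow_natCast, v.ord_zpow, ← h1]
    simp [hD', hU v]
    ring
  · convert hr₁ using 3; exact hf₁.symm
  · convert hr₂ using 3; exact hf₂.symm

theorem ord_smul_eq (σ : SemilinearAut L F) {n : ℕ} {D : Divisor L F} {f : F}
    (hf : ∀ v : Place L F, v.ord f = (n : ℤ) * D v) (v : Place L F) :
    v.ord (σ • f) = (n : ℤ) * (σ • D) v := by
  have h := SemilinearAut.ord_smul σ (σ⁻¹ • v) f
  rw [smul_inv_smul] at h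
  rw [h, hf, SemilinearAut.divisor_smul_apply]

/-- The quotient `σ f / f` of normalised data, for a compatible automorphism `σ`. -/
theorem exists_quotient_data {σ : SemilinearAut L F} {χ : SemilinearAut k C}
    (hσ : Δ.RedAction σ χ) {n : ℕ} {D : Divisor.degZero (K := L) (F := F)} {f : F}
    (h₁ : f ∈ Δ.P₁.G) (h₂ : f ∈ Δ.P₂.G) (hf : f ≠ 0)
    (hord : ∀ v, v.ord f = (n : ℤ) * (D : Divisor L F) v)
    (hr₁ : Δ.P₁.red ⟨f, h₁⟩ ≠ 0) (hr₂ : Δ.P₂.red ⟨f, h₂⟩ ≠ 0) :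
    ∃ (D' : Divisor.degZero (K := L) (F := F)) (g : F) (g₁ : g ∈ Δ.P₁.G) (g₂ : g ∈ Δ.P₂.G),
      Pic0.mk D' = σ • Pic0.mk D - Pic0.mk D ∧ g ≠ 0 ∧
      (∀ v, v.ord g = (n : ℤ) * (D' : Divisor L F) v) ∧
      Δ.P₁.red ⟨g, g₁⟩ = (χ • Δ.P₁.red ⟨f, h₁⟩) / Δ.P₁.red ⟨f, h₁⟩ ∧
      Δ.P₂.red ⟨g, g₂⟩ = (χ • Δ.P₂.red ⟨f, h₂⟩) / Δ.P₂.red ⟨f, h₂⟩ := by
  refine ⟨SemilinearAut.degZeroSMulHom σ D - D, (σ • f) * f⁻¹,
    mul_mem (hσ.mem₁ ⟨f, h₁⟩) (Δ.P₁.inv_mem ⟨f, h₁⟩ hr₁),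
    mul_mem (hσ.mem₂ ⟨f, h₂⟩) (Δ.P₂.inv_mem ⟨f, h₂⟩ hr₂), ?_, ?_, ?_, ?_, ?_⟩
  · rw [SemilinearAut.pic0_smul_mk]
    rfl
  · exact mul_ne_zero (smul_ne_zero_iff_ne σ |>.mpr hf) (inv_ne_zero hf)
  · intro v
    rw [v.ord_mul (smul_ne_zero_iff_ne σ |>.mpr hf) (inv_ne_zero hf), v.ord_inv,
      ord_smul_eq σ hord v, hord v]
    simp [sub_eq_add_neg]
    ring
  · rw [div_eq_mul_inv, ← hσ.red₁ ⟨f, h₁⟩, ← pair_red_inv Δ.P₁ hr₁, ← map_mul]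
    rfl
  · rw [div_eq_mul_inv, ← hσ.red₂ ⟨f, h₂⟩, ← pair_red_inv Δ.P₂ hr₂, ← map_mul]
    rfl

/-- A torsion class has a representative whose function is a unit on both components. -/
theorem exists_normalized {n : ℕ} (hn : 0 < n) {z : Pic0 L F} (hz : n • z = 0) :
    ∃ (D : Divisor.degZero (K := L) (F := F)) (f : F) (h₁ : f ∈ Δ.P₁.G) (h₂ : f ∈ Δ.P₂.G),
      Pic0.mk D = z ∧ f ≠ 0 ∧ (∀ v, v.ord f = (n : ℤ) * (D : Divisor L F) v) ∧
      Δ.P₁.red ⟨f, h₁⟩ ≠ 0 ∧ Δ.P₂.red ⟨f, h₂⟩ ≠ 0 := by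
  obtain ⟨D, rfl⟩ := Pic0.mk_surjective z
  obtain ⟨D', f, h₁, h₂, h, -, hf⟩ := Δ.exists_normalized_rep hn D hz
  exact ⟨D', f, h₁, h₂, h, hf⟩

/-- For inertia, `σ z - z` has unit root data. -/
theorem exists_inertia_rootData {σ : SemilinearAut L F} (hσ : Δ.RedAction σ 1) {n : ℕ}
    (hn : (n : k) ≠ 0) {z : Pic0 L F} (hz : n • z = 0) :
    ∃ (D : Divisor.degZero (K := L) (F := F)) (f : F),
      Pic0.mk D = σ • z - z ∧ Δ.IsRootData n (D : Divisor L F) f 1 1 := by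
  have hn0 : 0 < n := Nat.pos_of_ne_zero fun h => hn (by rw [h, Nat.cast_zero])
  obtain ⟨D, f, h₁, h₂, rfl, hf, hord, hr₁, hr₂⟩ := Δ.exists_normalized hn0 hz
  obtain ⟨D', g, g₁, g₂, hD', hg, hgord, hg₁, hg₂⟩ :=
    Δ.exists_quotient_data hσ h₁ h₂ hf hord hr₁ hr₂
  refine ⟨D', g, hD', hg, hgord, g₁, g₂, one_ne_zero, one_ne_zero, ?_, ?_⟩
  · rw [hg₁, one_smul, div_self hr₁, one_pow]
  · rw [hg₂, one_smul, div_self hr₂, one_pow]

end NodalDatum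

end Fermat.Agent.BAD
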