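import Fermat.Agent.BAD.Basic

/-!
# Divisors whose `n`-th multiple has `n`-th power residues on both components
-/

set_option autoImplicit false

noncomputable section

open AlgebraicCurve

namespace Fermat.Agent.BAD.NodalDatum

variable {L k : Type} [Field L] [Field k] {A : ValuationSubring L} {π : A →+* k}
variable {F E C : Type} [Field F] [Field E] [Field C] [Algebra L F] [Algebra L E] [Algebra k C]

/-- `f` has divisor `n • D` and reduces to `r₁ ^ n`, `r₂ ^ n` on the two components. -/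
structure IsRootData (Δ : NodalDatum A π F E C) (n : ℕ) (D : Divisor L F) (f : F) (r₁ r₂ : C) :
    Prop where
  ne_zero : f ≠ 0
  ord_eq : ∀ v, v.ord f = (n : ℤ) * D v
  mem₁ : f ∈ Δ.P₁.G
  mem₂ : f ∈ Δ.P₂.G
  red_ne₁ : r₁ ≠ 0
  red_ne₂ : r₂ ≠ 0
  red₁ : Δ.P₁.red ⟨f, mem₁⟩ = r₁ ^ n
  red₂ : Δ.P₂.red ⟨f, mem₂⟩ = r₂ ^ n

theorem IsRootData.swap {Δ : NodalDatum A π F E C} {n : ℕ} {D : Divisor L F} {f : F}
    {r₁ r₂ : C} (h : Δ.IsRootData n D f r₁ r₂) : Δ.swap.IsRootData n D f r₂ r₁ :=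
  ⟨h.ne_zero, h.ord_eq, h.mem₂, h.mem₁, h.red_ne₂, h.red_ne₁, h.red₂, h.red₁⟩

end Fermat.Agent.BAD.NodalDatum
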